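import Mathlib
import Fermat.Agent.S22.FG
import Fermat.Agent.S29.ParFinal

/-!
# C80 (S31 / S30): the lattice `Λ = Hom_par(Γ₀(N), ℤ)`

* `Lam N`: parabolic homomorphisms `Γ₀(N) → ℤ`; finitely generated and free over `ℤ`;
* `Tpar`: the Hecke operators on `Λ`;
* `redMod m : Λ → parFin N m`: reduction modulo `m`, with kernel `m Λ`, Hecke equivariant;
* `exists_decomp`: every parabolic homomorphism `Γ₀(N) → A` into a torsion-free abelian group is
  a finite sum `∑ e_j • c_j` with `c_j ∈ Λ`.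
-/

set_option autoImplicit false
set_option linter.unusedSectionVars false
set_option linter.unusedVariables false
set_option linter.style.haveILetI false

noncomputable section

open Matrix.SpecialLinearGroup CongruenceSubgroup
open scoped MatrixGroups
open ModularCurve ModularCurve.Period

namespace Fermat.Agent.S31.Lat

open Fermat.Agent.S29.D1

/-! ### generalities on homomorphisms of a finitely generated group -/

section General

variable {Γ : Type*} [Group Γ]

/-- induction over a generating set -/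
theorem induction_of_closure {S : Set Γ} (hS : Subgroup.closure S = ⊤) (P : Γ → Prop)
    (h1 : ∀ s ∈ S, P s) (h2 : P 1) (h3 : ∀ x y, P x → P y → P (x * y))
    (h4 : ∀ x, P x → P x⁻¹) (γ : Γ) : P γ := by
  have hγ : γ ∈ Subgroup.closure S := by
    rw [hS]
    exact Subgroup.mem_top γ
  exact Subgroup.closure_induction (p := fun g _ => P g) (fun x hx => h1 x hx) h2
    (fun x y _ _ hx hy => h3 x y hx hy) (fun x _ hx => h4 x hx) hγ

/-- the values of a homomorphism lie in every subgroup containing the values on generators -/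
theorem hom_mem_of_closure {A : Type*} [AddCommGroup A] {S : Set Γ}
    (hS : Subgroup.closure S = ⊤) (c : Additive Γ →+ A) (W : AddSubgroup A)
    (h : ∀ s ∈ S, c (Additive.ofMul s) ∈ W) (γ : Additive Γ) : c γ ∈ W := by
  refine induction_of_closure hS (fun g => c (Additive.ofMul g) ∈ W) h ?_ ?_ ?_
    (Additive.toMul γ)
  · show c 0 ∈ W
    rw [map_zero]
    exact W.zero_mem
  · intro x y hx hy
    show c (Additive.ofMul x + Additive.ofMul y) ∈ W
    rw [map_add]
    exact W.add_mem hx hy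
  · intro x hx
    show c (-(Additive.ofMul x)) ∈ W
    rw [map_neg]
    exact W.neg_mem hx

/-- evaluation at a set of elements -/
def evalAt (S : Set Γ) : (Additive Γ →+ ℤ) →ₗ[ℤ] (S → ℤ) where
  toFun c := fun s => c (Additive.ofMul (s : Γ))
  map_add' _ _ := rfl
  map_smul' _ _ := rfl

theorem evalAt_injective {S : Set Γ} (hS : Subgroup.closure S = ⊤) :
    Function.Injective (evalAt S) := by
  rw [← LinearMap.ker_eq_bot, LinearMap.ker_eq_bot']
  intro c hc
  refine AddMonoidHom.ext fun γ => ?_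
  have h1 : c γ ∈ (⊥ : AddSubgroup ℤ) :=
    hom_mem_of_closure hS c ⊥ (fun s hs => by
      have := congrFun hc ⟨s, hs⟩
      exact this) γ
  exact h1

/-- for a finitely generated group, every submodule of `Hom(Γ, ℤ)` is finitely generated and
free -/
theorem finite_free_of_fg [hfg : Group.FG Γ] (L : Submodule ℤ (Additive Γ →+ ℤ)) :
    Module.Finite ℤ L ∧ Module.Free ℤ L := by
  obtain ⟨S, hS, hSfin⟩ := Group.fg_iff.mp hfg
  haveI : Finite S := hSfin
  let f : L →ₗ[ℤ] (S → ℤ) := (evalAt S).comp L.subtype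
  have hf : Function.Injective f := (evalAt_injective hS).comp Subtype.val_injective
  let e : L ≃ₗ[ℤ] LinearMap.range f := LinearEquiv.ofInjective f hf
  exact ⟨Module.Finite.equiv e.symm, Module.Free.of_equiv e.symm⟩

end General

/-! ### the lattice -/

variable {N : ℕ} [NeZero N]

/-- `Λ = Hom_par(Γ₀(N), ℤ)` -/
abbrev Lam (N : ℕ) : Type := parabolicHoms ℤ (Gamma0 N) ℤ

instance instFiniteLam : Module.Finite ℤ (Lam N) :=
  haveI : Group.FG (Gamma0 N) := Fermat.Agent.S22.groupFG_Gamma0 N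
  (finite_free_of_fg _).1

instance instFreeLam : Module.Free ℤ (Lam N) :=
  haveI : Group.FG (Gamma0 N) := Fermat.Agent.S22.groupFG_Gamma0 N
  (finite_free_of_fg _).2

/-- the Hecke operator `T_ℓ` on `Λ` -/
def Tpar {ℓ : ℕ} (hℓ : ℓ.Prime) (hℓN : ¬ ℓ ∣ N) : Module.End ℤ (Lam N) :=
  @heckePar' N ℓ ⟨hℓ⟩ hℓN ℤ _ ℤ _ _

theorem coe_Tpar {ℓ : ℕ} (hℓ : ℓ.Prime) (hℓN : ¬ ℓ ∣ N) (c : Lam N) :
    ((Tpar hℓ hℓN c : Lam N) : Additive (Gamma0 N) →+ ℤ)
      = @heckeHom N ℓ ⟨hℓ⟩ ℤ _ hℓN c.1 := rfl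

/-- a homomorphism to a torsion-free group kills the elements of finite order -/
theorem hom_isOfFinOrder_eq_zero' {Γ : Type*} [Group Γ] {A : Type*} [AddCommGroup A]
    [IsAddTorsionFree A] (c : Additive Γ →+ A) (γ : Γ)
    (hγ : IsOfFinOrder γ) : c (Additive.ofMul γ) = 0 := by
  obtain ⟨n, hn, hγn⟩ := isOfFinOrder_iff_pow_eq_one.mp hγ
  have h1 : c (Additive.ofMul (γ ^ n)) = n • c (Additive.ofMul γ) := by
    rw [ofMul_pow, map_nsmul]
  rw [hγn] at h1
  have h2 : c (Additive.ofMul (1 : Γ)) = 0 := map_zero c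
  rw [h2] at h1
  exact (nsmul_eq_zero_iff_right hn.ne').mp h1.symm

/-! ### reduction modulo `m` -/

/-- reduction modulo `m` -/
def redMod (N m : ℕ) [NeZero N] : Lam N →+ parFin N m where
  toFun c := ⟨(Int.castAddHom (ZMod m)).comp c.1,
    fun γ hγ => by
      show ((c.1 (Additive.ofMul γ) : ℤ) : ZMod m) = 0
      rw [c.2 γ hγ, Int.cast_zero],
    fun γ hγ => by
      show ((c.1 (Additive.ofMul γ) : ℤ) : ZMod m) = 0
      rw [hom_isOfFinOrder_eq_zero' c.1 γ hγ, Int.cast_zero]⟩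
  map_zero' := by
    apply Subtype.ext
    refine AddMonoidHom.ext fun γ => ?_
    show (((0 : Additive (Gamma0 N) →+ ℤ) γ : ℤ) : ZMod m) = 0
    rw [AddMonoidHom.zero_apply, Int.cast_zero]
  map_add' c c' := by
    apply Subtype.ext
    refine AddMonoidHom.ext fun γ => ?_
    show (((c.1 + c'.1) γ : ℤ) : ZMod m) = ((c.1 γ : ℤ) : ZMod m) + ((c'.1 γ : ℤ) : ZMod m)
    rw [AddMonoidHom.add_apply, Int.cast_add]

theorem redMod_apply (m : ℕ) (c : Lam N) (γ : Additive (Gamma0 N)) :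
    ((redMod N m c : parFin N m) : Additive (Gamma0 N) →+ ZMod m) γ = ((c.1 γ : ℤ) : ZMod m) :=
  rfl

/-- the kernel of the reduction modulo `m` is `m Λ` -/
theorem exists_eq_smul_of_redMod_eq_zero (m : ℕ) [NeZero m] (c : Lam N)
    (hc : redMod N m c = 0) : ∃ c' : Lam N, c = m • c' := by
  have hm : (m : ℤ) ≠ 0 := by exact_mod_cast NeZero.ne m
  have hdvd : ∀ γ : Additive (Gamma0 N), (m : ℤ) ∣ c.1 γ := by
    intro γ
    have h1 := congrArg (fun x : parFin N m => (x : Additive (Gamma0 N) →+ ZMod m) γ) hc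
    simp only [redMod_apply] at h1
    exact (ZMod.intCast_zmod_eq_zero_iff_dvd _ _).mp h1
  let c₀ : Additive (Gamma0 N) →+ ℤ :=
    { toFun := fun γ => c.1 γ / (m : ℤ)
      map_zero' := by rw [map_zero, Int.zero_ediv]
      map_add' := fun γ δ => by
        rw [map_add, Int.add_ediv_of_dvd_left (hdvd γ)] }
  have hc₀ : ∀ γ, (m : ℤ) * c₀ γ = c.1 γ := fun γ => Int.mul_ediv_cancel' (hdvd γ)
  refine ⟨⟨c₀, fun γ hγ => ?_⟩, ?_⟩
  · have h1 := hc₀ (Additive.ofMul γ)
    rw [c.2 γ hγ] at h1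
    rcases mul_eq_zero.mp h1 with h | h
    · exact absurd h hm
    · exact h
  · apply Subtype.ext
    refine AddMonoidHom.ext fun γ => ?_
    show c.1 γ = m • c₀ γ
    rw [nsmul_eq_mul, hc₀ γ]

theorem redMod_smul (m : ℕ) (c : Lam N) : redMod N m (m • c) = 0 := by
  apply Subtype.ext
  refine AddMonoidHom.ext fun γ => ?_
  show (((m • c.1) γ : ℤ) : ZMod m) = 0
  rw [AddMonoidHom.smul_apply, nsmul_eq_mul, Int.cast_mul, Int.cast_natCast,
    ZMod.natCast_self, zero_mul]

/-- the reduction modulo `m` is Hecke equivariant -/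
theorem redMod_Tpar (m : ℕ) {ℓ : ℕ} (hℓ : ℓ.Prime) (hℓN : ¬ ℓ ∣ N) (c : Lam N) :
    redMod N m (Tpar hℓ hℓN c) = heckeParFin N m ℓ hℓ (redMod N m c) := by
  apply Subtype.ext
  rw [coe_heckeParFin hℓ hℓN]
  exact (@heckeHom_comp N ℓ ⟨hℓ⟩ ℤ _ (ZMod m) _ hℓN (Int.castAddHom (ZMod m)) c.1).symm

end Fermat.Agent.S31.Lat
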