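import Mathlib
import Fermat.Agent.S37.GalRed
import Fermat.Agent.S18.CuspRoots
import Fermat.Prelude.Def_FLTPrelim_Ramification
import Fermat.Prelude.Def_GaloisRep_Residual

/-!
# C80 (S31 + S30), piece CYC: the cyclotomic character modulo any `m ≥ 1`

`chiM m : Gal(ℚ̄/ℚ) →* (ZMod m)ˣ` with
* `chiM m σ = ℓ` for every Frobenius element `σ` at a prime `ℓ ∤ m`;
* `chiM m τ = 1` for `τ` in an inertia group at a prime `ℓ ∤ m`;
* `chiM m` has finite level;
* compatibility: `chiM m` is the reduction of `chiM m'` for `m ∣ m'`;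
* a complex conjugation `c₀` (`c₀ * c₀ = 1`, `c₀ ≠ 1`) with `chiM m c₀ = -1` for all `m`.
-/

set_option autoImplicit false
set_option linter.unusedSectionVars false
set_option linter.style.haveILetI false

noncomputable section

namespace Fermat.Agent.S31.Cyc

local notation "Qb" => AlgebraicClosure ℚ
local notation "Gal" => (AlgebraicClosure ℚ ≃ₐ[ℚ] AlgebraicClosure ℚ)

/-- `Gal(ℚ̄/ℚ) → Aut(ℚ̄)` as a monoid homomorphism -/
def toRingEquivHom' : Gal →* (Qb ≃+* Qb) where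
  toFun σ := (σ : Qb ≃+* Qb)
  map_one' := rfl
  map_mul' _ _ := rfl

variable (m : ℕ) [NeZero m]

theorem card_rootsM : Nat.card (rootsOfUnity m Qb) = m :=
  HasEnoughRootsOfUnity.natCard_rootsOfUnity Qb m

/-- The mod `m` cyclotomic character of `Gal(ℚ̄/ℚ)`. -/
def chiM : Gal →* (ZMod m)ˣ :=
  (modularCyclotomicCharacter Qb (card_rootsM m)).comp toRingEquivHom'

theorem chiM_spec (σ : Gal) {ζ : Qbˣ} (hζ : ζ ∈ rootsOfUnity m Qb) :
    σ (ζ : Qb) = (ζ : Qb) ^ ((chiM m σ : (ZMod m)ˣ) : ZMod m).val :=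
  modularCyclotomicCharacter.spec Qb (card_rootsM m) (σ : Qb ≃+* Qb) hζ

/-- the same for elements of `ℚ̄` -/
theorem chiM_spec' (σ : Gal) {x : Qb} (hx : x ^ m = 1) :
    σ x = x ^ ((chiM m σ : (ZMod m)ˣ) : ZMod m).val := by
  have hx0 : x ≠ 0 := by
    rintro rfl
    rw [zero_pow (NeZero.ne m)] at hx
    exact zero_ne_one hx
  have hmem : Units.mk0 x hx0 ∈ rootsOfUnity m Qb := by
    rw [mem_rootsOfUnity]
    apply Units.ext
    simpa using hx
  exact chiM_spec m σ hmem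

/-- uniqueness -/
theorem chiM_unique (σ : Gal) (c : ZMod m) (hc : ∀ x : Qb, x ^ m = 1 → σ x = x ^ c.val) :
    ((chiM m σ : (ZMod m)ˣ) : ZMod m) = c := by
  symm
  apply modularCyclotomicCharacter.unique Qb (card_rootsM m) (σ : Qb ≃+* Qb)
  intro t ht
  have ht' : (t : Qb) ^ m = 1 := by
    have := (mem_rootsOfUnity m t).mp ht
    rw [← Units.val_pow_eq_pow_val, this, Units.val_one]
  exact hc _ ht'

/-- powers of an `m`-th root of unity only depend on the exponent modulo `m` -/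
theorem pow_val_natCast {x : Qb} (hx : x ^ m = 1) (k : ℕ) : x ^ ((k : ZMod m)).val = x ^ k := by
  rw [ZMod.val_natCast]
  conv_rhs => rw [← Nat.mod_add_div k m]
  rw [pow_add, pow_mul, hx, one_pow, mul_one]

section Local

variable (A : ValuationSubring Qb) (ℓ : ℕ) [hℓ : Fact ℓ.Prime] (hA : A.LiesOverPrime ℓ)

include hA in
/-- If `g` in the decomposition group acts on the residue field by `x ↦ x ^ k`, then
`chiM m g = k` (for `ℓ ∤ m`). -/
theorem chiM_eq_of_residue_pow (hℓm : ¬ ℓ ∣ m) (g : A.decompositionSubgroup ℚ) (k : ℕ)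
    (hg : ∀ x : IsLocalRing.ResidueField A, g • x = x ^ k) :
    (((chiM m (g : Gal) : (ZMod m)ˣ) : ZMod m)) = (k : ZMod m) := by
  obtain ⟨ζ, hζ⟩ := HasEnoughRootsOfUnity.exists_primitiveRoot Qb m
  have hζp : ζ ^ m = 1 := hζ.pow_eq_one
  have hζ0 : ζ ≠ 0 := hζ.ne_zero (NeZero.ne m)
  have hm1 : 1 ≤ m := Nat.pos_of_ne_zero (NeZero.ne m)
  -- `ζ ∈ A`
  have hmem : ∀ x : Qb, x ^ m = 1 → x ∈ A := by
    intro x hx
    rcases A.mem_or_inv_mem x with h | h
    · exact h
    · have h1 : x = x⁻¹ ^ (m - 1) := by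
        have h2 : x ^ (m - 1) * x = 1 := by
          rw [← pow_succ, Nat.sub_add_cancel hm1, hx]
        rw [inv_pow]
        exact eq_inv_of_mul_eq_one_right h2
      rw [h1]
      exact A.pow_mem h _
  have hζA : ζ ∈ A := hmem ζ hζp
  have hζinvA : ζ⁻¹ ∈ A := hmem ζ⁻¹ (by rw [inv_pow, hζp, inv_one])
  let u : Aˣ := ⟨⟨ζ, hζA⟩, ⟨ζ⁻¹, hζinvA⟩, Subtype.ext (mul_inv_cancel₀ hζ0),
    Subtype.ext (inv_mul_cancel₀ hζ0)⟩
  have hucoe : ∀ n : ℕ, (((u ^ n : Aˣ) : A) : Qb) = ζ ^ n := by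
    intro n
    rw [Units.val_pow_eq_pow_val]
    rfl
  have hu : IsPrimitiveRoot u m := by
    refine ⟨?_, fun l hl => ?_⟩
    · apply Units.ext
      apply Subtype.ext
      rw [hucoe, hζp]
      rfl
    · apply hζ.dvd_of_pow_eq_one
      rw [← hucoe, hl]
      rfl
  have hres := Fermat.Agent.S18.Cusp.isPrimitiveRoot_residue A ℓ hA hℓm hu
  set ζb : (IsLocalRing.ResidueField A)ˣ :=
    Units.map ((IsLocalRing.residue A : A →+* IsLocalRing.ResidueField A) :
      A →* IsLocalRing.ResidueField A) u with hζb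
  have hζbcoe : (ζb : IsLocalRing.ResidueField A) = IsLocalRing.residue A (u : A) := rfl
  -- the action
  set a : ℕ := ((chiM m (g : Gal) : (ZMod m)ˣ) : ZMod m).val with ha
  have hgζ : (g : Gal) ζ = ζ ^ a := chiM_spec' m (g : Gal) hζp
  have hsmul : g • (u : A) = ((u ^ a : Aˣ) : A) := by
    apply Subtype.ext
    rw [hucoe]
    exact hgζ
  have h1 : (ζb : IsLocalRing.ResidueField A) ^ a = (ζb : IsLocalRing.ResidueField A) ^ k := by
    rw [← hg, hζbcoe, ← map_pow, ← IsLocalRing.ResidueField.residue_smul, hsmul,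
      Units.val_pow_eq_pow_val]
  have h2 : ζb ^ a = ζb ^ k := Units.ext (by
    rw [Units.val_pow_eq_pow_val, Units.val_pow_eq_pow_val]
    exact h1)
  have h3 : a ≡ k [MOD m] := by
    have := pow_eq_pow_iff_modEq.mp h2
    rwa [← hres.eq_orderOf] at this
  have h4 : ((a : ℕ) : ZMod m) = (k : ZMod m) := (ZMod.natCast_eq_natCast_iff a k m).mpr h3
  rw [← h4, ha, ZMod.natCast_zmod_val]

include hA in
/-- The cyclotomic character at a Frobenius element. -/
theorem chiM_frobenius (hℓm : ¬ ℓ ∣ m) (σ : Gal) (hσ : A.IsFrobeniusAt σ ℓ) :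
    (((chiM m σ : (ZMod m)ˣ) : ZMod m)) = (ℓ : ZMod m) := by
  obtain ⟨hmem, hfrob⟩ := hσ
  exact chiM_eq_of_residue_pow m A ℓ hA hℓm ⟨σ, hmem⟩ ℓ hfrob

include hA in
/-- The cyclotomic character is trivial on inertia. -/
theorem chiM_inertia (hℓm : ¬ ℓ ∣ m) (τ : Gal) (hτ : τ ∈ A.inertiaSubgroupIn ℚ) :
    chiM m τ = 1 := by
  obtain ⟨g, hg, rfl⟩ := hτ
  have h1 : Fermat.Agent.S37.G.resAut A g = 1 := hg
  have h2 : ∀ x : IsLocalRing.ResidueField A, g • x = x ^ 1 := by
    intro x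
    rw [pow_one, ← Fermat.Agent.S37.G.resAut_apply, h1]
    rfl
  have h3 := chiM_eq_of_residue_pow m A ℓ hA hℓm g 1 h2
  apply Units.ext
  rw [show ((A.decompositionSubgroup ℚ).subtype g : Gal) = (g : Gal) from rfl, h3]
  simp

end Local

/-- an automorphism fixing the `m`-th roots of unity has trivial cyclotomic character -/
theorem chiM_eq_one_of_fix (σ : Gal) (hσ : ∀ x : Qb, x ^ m = 1 → σ x = x) : chiM m σ = 1 := by
  apply Units.ext
  rw [Units.val_one]
  apply chiM_unique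
  intro x hx
  rw [hσ x hx]
  have := pow_val_natCast m hx 1
  rw [Nat.cast_one, pow_one] at this
  exact this.symm

/-- The cyclotomic character has finite level. -/
theorem chiM_finiteLevel : GaloisFactorsThroughFiniteLevel (chiM m) := by
  obtain ⟨ζ, hζ⟩ := HasEnoughRootsOfUnity.exists_primitiveRoot Qb m
  have hint : IsIntegral ℚ ζ := (hζ.isIntegral (Nat.pos_of_ne_zero (NeZero.ne m))).tower_top
  refine ⟨IntermediateField.adjoin ℚ {ζ}, IntermediateField.adjoin.finiteDimensional hint, ?_⟩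
  intro σ hσ
  have hσζ : σ ζ = ζ := hσ ζ (IntermediateField.subset_adjoin ℚ {ζ} rfl)
  apply chiM_eq_one_of_fix
  intro x hx
  obtain ⟨i, -, hi⟩ := hζ.eq_pow_of_pow_eq_one hx
  rw [← hi, map_pow, hσζ]

/-- the field of `m`-th roots of unity as a level: an automorphism fixing a level containing a
primitive `m`-th root of unity has trivial character -/
theorem chiM_eq_one_of_level {L : IntermediateField ℚ Qb} {ζ : Qb} (hζ : IsPrimitiveRoot ζ m)
    (hζL : ζ ∈ L) (σ : Gal) (hσ : ∀ x ∈ L, σ x = x) : chiM m σ = 1 := by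
  apply chiM_eq_one_of_fix
  intro x hx
  obtain ⟨i, -, hi⟩ := hζ.eq_pow_of_pow_eq_one hx
  rw [← hi, map_pow, hσ ζ hζL]

/-- **compatibility** of the cyclotomic characters -/
theorem chiM_compat {m m' : ℕ} [NeZero m] [NeZero m'] (h : m ∣ m') (σ : Gal) :
    ZMod.unitsMap h (chiM m' σ) = chiM m σ := by
  apply Units.ext
  symm
  apply chiM_unique
  intro x hx
  have hx' : x ^ m' = 1 := by
    obtain ⟨d, rfl⟩ := h
    rw [pow_mul, hx, one_pow]
  rw [chiM_spec' m' σ hx']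
  have e : ((ZMod.unitsMap h (chiM m' σ) : (ZMod m)ˣ) : ZMod m)
      = ((((chiM m' σ : (ZMod m')ˣ) : ZMod m').val : ℕ) : ZMod m) := by
    rw [ZMod.unitsMap_def, Units.coe_map]
    show ZMod.castHom h (ZMod m) _ = _
    rw [ZMod.castHom_apply, ZMod.natCast_val]
  rw [e, pow_val_natCast m hx]

/-! ### complex conjugation -/

section Conj

theorem isAlgebraic_Qb : Algebra.IsAlgebraic ℚ Qb := AlgebraicClosure.isAlgebraic ℚ

theorem normal_Qb : Normal ℚ Qb :=
  haveI : Algebra.IsAlgebraic ℚ Qb := isAlgebraic_Qb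
  haveI : IsAlgClosure ℚ Qb := ⟨inferInstance, inferInstance⟩
  IsAlgClosure.normal ℚ Qb

/-- an embedding of `ℚ̄` into `ℂ` -/
def embQbC : Qb →ₐ[ℚ] ℂ :=
  haveI : Algebra.IsAlgebraic ℚ Qb := isAlgebraic_Qb
  IsAlgClosed.lift

/-- the algebra structure on `ℂ` over `ℚ̄` given by `embQbC` -/
@[reducible] def algQbC : Algebra Qb ℂ := embQbC.toRingHom.toAlgebra

theorem isScalarTower_QbC : @IsScalarTower ℚ Qb ℂ _ algQbC.toSMul _ :=
  letI := algQbC
  IsScalarTower.of_algebraMap_eq (fun q => (embQbC.commutes q).symm)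

/-- a complex conjugation in `Gal(ℚ̄/ℚ)` -/
def conj₀ : Gal :=
  letI := algQbC
  haveI := isScalarTower_QbC
  haveI := normal_Qb
  AlgEquiv.restrictNormal (Complex.conjAe.restrictScalars ℚ) Qb

theorem embQbC_conj₀ (x : Qb) : embQbC (conj₀ x) = starRingEnd ℂ (embQbC x) := by
  letI := algQbC
  haveI := isScalarTower_QbC
  haveI := normal_Qb
  exact AlgEquiv.restrictNormal_commutes (Complex.conjAe.restrictScalars ℚ) Qb x

theorem embQbC_injective : Function.Injective embQbC := embQbC.toRingHom.injective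

theorem conj₀_conj₀ (x : Qb) : conj₀ (conj₀ x) = x := by
  apply embQbC_injective
  rw [embQbC_conj₀, embQbC_conj₀, Complex.conj_conj]

theorem conj₀_mul_self : conj₀ * conj₀ = 1 := by
  ext x
  exact conj₀_conj₀ x

/-- complex conjugation inverts the roots of unity -/
theorem conj₀_root {m : ℕ} (hm : m ≠ 0) {x : Qb} (hx : x ^ m = 1) : conj₀ x = x⁻¹ := by
  apply embQbC_injective
  rw [embQbC_conj₀, map_inv₀]
  have h1 : embQbC x ^ m = 1 := by rw [← map_pow, hx, map_one]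
  have h2 : ‖embQbC x‖ = 1 := Complex.norm_eq_one_of_pow_eq_one h1 hm
  exact (Complex.inv_eq_conj h2).symm

theorem chiM_conj₀ : chiM m conj₀ = -1 := by
  apply Units.ext
  rw [Units.val_neg, Units.val_one]
  apply chiM_unique
  intro x hx
  rw [conj₀_root (NeZero.ne m) hx]
  have hm1 : 1 ≤ m := Nat.pos_of_ne_zero (NeZero.ne m)
  have e : ((-1 : ZMod m)) = ((m - 1 : ℕ) : ZMod m) := by
    rw [Nat.cast_sub hm1, ZMod.natCast_self, zero_sub, Nat.cast_one]
  rw [e, pow_val_natCast m hx]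
  have h2 : x ^ (m - 1) * x = 1 := by
    rw [← pow_succ, Nat.sub_add_cancel hm1, hx]
  exact (eq_inv_of_mul_eq_one_left h2).symm

theorem conj₀_ne_one : conj₀ ≠ 1 := by
  intro h
  have h1 := chiM_conj₀ 3
  rw [h, map_one] at h1
  have h2 : ((1 : (ZMod 3)ˣ) : ZMod 3) = ((-1 : (ZMod 3)ˣ) : ZMod 3) := by rw [← h1]
  revert h2
  decide

/-- **complex conjugation**: an involution of `ℚ̄` on which every cyclotomic character is `-1` -/
theorem exists_conj : ∃ c₀ : Gal, c₀ * c₀ = 1 ∧ c₀ ≠ 1 ∧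
    ∀ (m : ℕ) [NeZero m], chiM m c₀ = -1 :=
  ⟨conj₀, conj₀_mul_self, conj₀_ne_one, fun m _ => chiM_conj₀ m⟩

end Conj

end Fermat.Agent.S31.Cyc
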