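import Mathlib
import Fermat.Agent.S22
import Fermat.Agent.S49.Abstract
import Fermat.Agent.S20.FinDim
import Fermat.Prelude.Def_CuspForm_HeckeAlgebra

/-!
# Campaign 80 (S31 / S30), piece EIG-(E1): an eigenform for a character of the Hecke algebra

`𝕋 = heckeAlgebra N 2 S`, `χ : 𝕋 →+* O` with `O` a domain of characteristic zero. Then there are
a nonzero cusp form `f` and a character `θ : 𝕋 →+* ℂ` with `T f = θ T • f` and `ker θ = ker χ`;
equivalently an injective `σ : 𝕋 ⧸ ker χ →+* ℂ` with `T f = σ [T] • f`.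
-/

set_option autoImplicit false
set_option linter.unusedSectionVars false

namespace Fermat.Agent.S31.Eig

/-- abstract form: a prime ideal lying over `(0)` of `ℤ` is the kernel of an eigencharacter. -/
theorem exists_eigenvector_ker_eq {A V : Type*} [CommRing A] [IsNoetherianRing A]
    [Algebra.IsIntegral ℤ A] [AddCommGroup V] [Module ℂ V] [FiniteDimensional ℂ V]
    (ρ : A →+* Module.End ℂ V) (hρ : Function.Injective ρ) (m : Ideal A) [m.IsPrime]
    (hm : ∀ n : ℤ, algebraMap ℤ A n ∈ m → n = 0) :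
    ∃ (v : V) (θ : A →+* ℂ), v ≠ 0 ∧ (∀ t, ρ t v = θ t • v) ∧ RingHom.ker θ = m := by
  obtain ⟨v, θ, hv, hθ, hle⟩ := Fermat.Agent.S49.exists_eigenvector_ker_le ρ hρ m
  refine ⟨v, θ, hv, hθ, le_antisymm hle ?_⟩
  -- incomparability in the integral extension `ℤ → A ⧸ ker θ`
  haveI hP : (RingHom.ker θ).IsPrime := RingHom.ker_isPrime θ
  have hbot : (m.map (Ideal.Quotient.mk (RingHom.ker θ))).comap
      (algebraMap ℤ (A ⧸ RingHom.ker θ)) = ⊥ := by
    rw [eq_bot_iff]
    intro n hn
    rw [Ideal.mem_comap] at hn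
    have h1 : algebraMap ℤ (A ⧸ RingHom.ker θ) n
        = Ideal.Quotient.mk (RingHom.ker θ) (algebraMap ℤ A n) := rfl
    rw [h1, Ideal.mem_map_iff_of_surjective _ Ideal.Quotient.mk_surjective] at hn
    obtain ⟨a, ha, hna⟩ := hn
    have h2 : a - algebraMap ℤ A n ∈ RingHom.ker θ := Ideal.Quotient.eq.mp hna
    have h3 : algebraMap ℤ A n ∈ m := by
      have := m.sub_mem ha (hle h2)
      simpa using this
    rw [hm n h3]
    exact Ideal.zero_mem _
  have hzero := Ideal.eq_bot_of_comap_eq_bot hbot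
  intro t ht
  have h4 : Ideal.Quotient.mk (RingHom.ker θ) t ∈ m.map (Ideal.Quotient.mk (RingHom.ker θ)) :=
    Ideal.mem_map_of_mem _ ht
  rw [hzero, Ideal.mem_bot] at h4
  exact Ideal.Quotient.eq_zero_iff_mem.mp h4

variable (N : ℕ) [NeZero N] (S : Set ℕ)

theorem finite_hecke : Module.Finite ℤ (CuspForm.heckeAlgebra N 2 S) :=
  Fermat.Agent.S22.result N 2 S

theorem isNoetherianRing_hecke : IsNoetherianRing (CuspForm.heckeAlgebra N 2 S) := by
  haveI := finite_hecke N S
  exact isNoetherian_of_tower ℤ (isNoetherian_of_isNoetherianRing_of_finite ℤ _)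

theorem isIntegral_hecke : Algebra.IsIntegral ℤ (CuspForm.heckeAlgebra N 2 S) := by
  haveI := finite_hecke N S
  exact Algebra.IsIntegral.of_finite ℤ _

/-- **EIG-(E1)**: a character `χ` of the Hecke algebra with values in a domain of characteristic
zero has the same kernel as the eigencharacter of some eigenform. -/
theorem exists_eigenform {O : Type*} [CommRing O] [IsDomain O] [CharZero O]
    (χ : CuspForm.heckeAlgebra N 2 S →+* O) :
    ∃ (f : CuspForm (CongruenceSubgroup.Gamma0 N) 2) (θ : CuspForm.heckeAlgebra N 2 S →+* ℂ),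
      f ≠ 0 ∧
      (∀ t : CuspForm.heckeAlgebra N 2 S,
        (t : Module.End ℂ (CuspForm (CongruenceSubgroup.Gamma0 N) 2)) f = θ t • f) ∧
      RingHom.ker θ = RingHom.ker χ := by
  haveI := isNoetherianRing_hecke N S
  haveI := isIntegral_hecke N S
  haveI : (RingHom.ker χ).IsPrime := RingHom.ker_isPrime χ
  haveI : FiniteDimensional ℂ (CuspForm (CongruenceSubgroup.Gamma0 N) 2) :=
    Fermat.Agent.S20.finiteDimensional_cuspForm N 2
  refine exists_eigenvector_ker_eq (A := CuspForm.heckeAlgebra N 2 S)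
    (CuspForm.heckeAlgebra N 2 S).val.toRingHom Subtype.val_injective (RingHom.ker χ) ?_
  intro n hn
  rw [RingHom.mem_ker, eq_intCast, map_intCast] at hn
  exact_mod_cast hn

/-- **EIG-(E1)**, quotient form: an injective ring homomorphism `σ : 𝕋 ⧸ ker χ →+* ℂ` and a
nonzero cusp form `f` with `T f = σ [T] • f`. -/
theorem exists_eigenform_quot {O : Type*} [CommRing O] [IsDomain O] [CharZero O]
    (χ : CuspForm.heckeAlgebra N 2 S →+* O) :
    ∃ (f : CuspForm (CongruenceSubgroup.Gamma0 N) 2)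
      (σ : (CuspForm.heckeAlgebra N 2 S ⧸ RingHom.ker χ) →+* ℂ),
      f ≠ 0 ∧ Function.Injective σ ∧
      ∀ t : CuspForm.heckeAlgebra N 2 S,
        (t : Module.End ℂ (CuspForm (CongruenceSubgroup.Gamma0 N) 2)) f
          = σ (Ideal.Quotient.mk (RingHom.ker χ) t) • f := by
  obtain ⟨f, θ, hf, hθ, hker⟩ := exists_eigenform N S χ
  have hle : ∀ a ∈ RingHom.ker χ, θ a = 0 := fun a ha => by
    rw [← hker] at ha
    exact ha
  refine ⟨f, Ideal.Quotient.lift (RingHom.ker χ) θ hle, hf,
    RingHom.lift_injective_of_ker_le_ideal _ hle (le_of_eq hker), fun t => ?_⟩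
  rw [Ideal.Quotient.lift_mk]
  exact hθ t

end Fermat.Agent.S31.Eig
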