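import Mathlib

/-!
# Campaign 80 (S31 / S30), piece SAT: saturation of a submodule of `End_ℤ Λ`

`Λ` a finitely generated free `ℤ`-module, `T ≤ End_ℤ Λ` a `ℤ`-submodule (e.g. a Hecke algebra).
There is `M₀ ≥ 1` such that for every `m` and every `t ∈ T` with `t Λ ⊆ m Λ` there is `q ∈ T`
with `M₀ • t = m • q`.
-/

set_option autoImplicit false

namespace Fermat.Agent.S31.Sat

variable {Λ : Type*} [AddCommGroup Λ]

/-- the saturation of a submodule of `End_ℤ Λ` (in fact of any abelian group) -/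
def sat {E : Type*} [AddCommGroup E] (T : Submodule ℤ E) : Submodule ℤ E where
  carrier := {u | ∃ m : ℕ, 0 < m ∧ m • u ∈ T}
  zero_mem' := ⟨1, one_pos, by simp⟩
  add_mem' := by
    rintro u v ⟨m, hm, hu⟩ ⟨n, hn, hv⟩
    refine ⟨m * n, Nat.mul_pos hm hn, ?_⟩
    rw [smul_add]
    refine add_mem ?_ ?_
    · rw [mul_comm, mul_smul]
      exact T.smul_of_tower_mem n hu
    · rw [mul_smul]
      exact T.smul_of_tower_mem m hv
  smul_mem' := by
    rintro c u ⟨m, hm, hu⟩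
    refine ⟨m, hm, ?_⟩
    rw [smul_comm]
    exact T.smul_mem c hu

theorem mem_sat {E : Type*} [AddCommGroup E] {T : Submodule ℤ E} {u : E} :
    u ∈ sat T ↔ ∃ m : ℕ, 0 < m ∧ m • u ∈ T := Iff.rfl

theorem le_sat {E : Type*} [AddCommGroup E] (T : Submodule ℤ E) : T ≤ sat T := fun u hu =>
  ⟨1, one_pos, by rwa [one_smul]⟩

/-- a finitely generated saturation has bounded exponent over `T` -/
theorem exists_bound_of_fg {E : Type*} [AddCommGroup E] (T : Submodule ℤ E)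
    (hfg : (sat T).FG) : ∃ M₀ : ℕ, 0 < M₀ ∧ ∀ u ∈ sat T, M₀ • u ∈ T := by
  classical
  obtain ⟨S, hS⟩ := hfg
  have hSsat : ∀ u ∈ S, ∃ m : ℕ, 0 < m ∧ m • u ∈ T := fun u hu => by
    have : u ∈ sat T := hS ▸ Submodule.subset_span hu
    exact this
  choose! m hm hmT using hSsat
  refine ⟨∏ u ∈ S, m u, Finset.prod_pos fun u hu => hm u hu, fun u hu => ?_⟩
  rw [← hS] at hu
  induction hu using Submodule.span_induction with
  | mem u hu =>
      rw [← Finset.mul_prod_erase S m hu, mul_comm, mul_smul]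
      exact T.smul_of_tower_mem _ (hmT u hu)
  | zero => rw [smul_zero]; exact zero_mem _
  | add u v _ _ hu hv => rw [smul_add]; exact add_mem hu hv
  | smul c u _ hu => rw [smul_comm]; exact T.smul_mem c hu

variable [Module.Free ℤ Λ] [Module.Finite ℤ Λ]

/-- an endomorphism with image in `m Λ` is divisible by `m` -/
theorem exists_smul_eq (m : ℕ) (t : Module.End ℤ Λ) (ht : ∀ x, ∃ y, t x = m • y) :
    ∃ u : Module.End ℤ Λ, m • u = t := by
  classical
  let b := Module.Free.chooseBasis ℤ Λ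
  choose y hy using ht
  refine ⟨b.constr ℤ fun i => y (b i), ?_⟩
  refine b.ext fun i => ?_
  rw [LinearMap.smul_apply, Module.Basis.constr_basis, hy]

/-- **SAT**: there is `M₀ ≥ 1` such that every `t ∈ T` with `t Λ ⊆ m Λ` satisfies
`M₀ • t = m • q` for some `q ∈ T`. -/
theorem exists_saturation_bound (T : Submodule ℤ (Module.End ℤ Λ)) :
    ∃ M₀ : ℕ, 0 < M₀ ∧ ∀ (m : ℕ) (t : Module.End ℤ Λ), t ∈ T → (∀ x, ∃ y, t x = m • y) →
      ∃ q ∈ T, M₀ • t = m • q := by
  have hfg : (sat T).FG := IsNoetherian.noetherian _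
  obtain ⟨M₀, hM₀, hM⟩ := exists_bound_of_fg T hfg
  refine ⟨M₀, hM₀, fun m t _ htm => ?_⟩
  obtain ⟨u, rfl⟩ := exists_smul_eq m t htm
  rcases Nat.eq_zero_or_pos m with rfl | hm
  · exact ⟨0, zero_mem _, by simp⟩
  · have hu : u ∈ sat T := ⟨m, hm, by assumption⟩
    exact ⟨M₀ • u, hM u hu, smul_comm _ _ _⟩

/-- the same for prime powers -/
theorem exists_saturation_bound_pow (T : Submodule ℤ (Module.End ℤ Λ)) (p : ℕ) :
    ∃ M₀ : ℕ, 0 < M₀ ∧ ∀ (n : ℕ) (t : Module.End ℤ Λ), t ∈ T → (∀ x, ∃ y, t x = p ^ n • y) →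
      ∃ q ∈ T, M₀ • t = p ^ n • q := by
  obtain ⟨M₀, hM₀, h⟩ := exists_saturation_bound T
  exact ⟨M₀, hM₀, fun n t ht htn => h (p ^ n) t ht htn⟩

end Fermat.Agent.S31.Sat
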