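import Mathlib
import Fermat.Prelude.Def_CuspForm_HeckeAlgebra
import Fermat.Agent.S29.ParPeriod
import Fermat.Agent.S31.Lat
import Fermat.Agent.S31.Sat

/-!
# C80 (S31 / S30): restriction from the Hecke algebra of `Λ` to the Hecke algebra of cusp forms

No commutativity of the operators `T_ℓ` on `Λ = Hom_par(Γ₀(N), ℤ)` is used: noncommutative
polynomials `P : FreeAlgebra ℤ I` are evaluated at the `T_ℓ` on `Λ` (`evPar`) and on `S₂(Γ₀(N))`
(`evForm`, `evT`).

* `exists_decomp`: a parabolic homomorphism into a torsion-free group is `∑ e_j • c_j`, `c_j ∈ Λ`;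
* `res_core`: `evPar P = 0 → evForm P = 0`;
* `hecke_saturation`: there is `M₀ ≥ 1` such that `evPar P (Λ) ⊆ m Λ` implies
  `M₀ • evT P = m • evT Q` for some `Q`.
-/

set_option autoImplicit false
set_option linter.unusedSectionVars false
set_option linter.unusedVariables false
set_option linter.style.haveILetI false

noncomputable section

open Matrix.SpecialLinearGroup CongruenceSubgroup
open scoped MatrixGroups
open ModularCurve ModularCurve.Period

namespace Fermat.Agent.S31.Lat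

open Fermat.Agent.S29.D1 Fermat.Agent.S21

variable {N : ℕ} [NeZero N]

/-! ### extension of coefficients and decomposition -/

/-- `e • c : γ ↦ c γ • e` for `c ∈ Λ`, `e ∈ A` -/
def smulLam {A : Type*} [AddCommGroup A] (e : A) (c : Lam N) : Additive (Gamma0 N) →+ A :=
  (zmultiplesHom A e).comp c.1

@[simp]
theorem smulLam_apply {A : Type*} [AddCommGroup A] (e : A) (c : Lam N)
    (γ : Additive (Gamma0 N)) : smulLam e c γ = c.1 γ • e := rfl

theorem smulLam_add {A : Type*} [AddCommGroup A] (e : A) (c c' : Lam N) :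
    smulLam e (c + c') = smulLam e c + smulLam e c' := by
  refine AddMonoidHom.ext fun γ => ?_
  show (c.1 γ + c'.1 γ) • e = c.1 γ • e + c'.1 γ • e
  rw [add_smul]

theorem smulLam_zsmul {A : Type*} [AddCommGroup A] (e : A) (r : ℤ) (c : Lam N) :
    smulLam e (r • c) = r • smulLam e c := by
  refine AddMonoidHom.ext fun γ => ?_
  show (r • c.1 γ) • e = r • (c.1 γ • e)
  rw [smul_assoc]

theorem smulLam_zero {A : Type*} [AddCommGroup A] (e : A) : smulLam e (0 : Lam N) = 0 := by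
  refine AddMonoidHom.ext fun γ => ?_
  show (0 : ℤ) • e = 0
  rw [zero_smul]

theorem heckeHom_smulLam {A : Type*} [AddCommGroup A] {ℓ : ℕ} (hℓ : ℓ.Prime) (hℓN : ¬ ℓ ∣ N)
    (e : A) (c : Lam N) :
    @heckeHom N ℓ ⟨hℓ⟩ A _ hℓN (smulLam e c) = smulLam e (Tpar hℓ hℓN c) :=
  @heckeHom_comp N ℓ ⟨hℓ⟩ ℤ _ A _ hℓN (zmultiplesHom A e) c.1

/-- **decomposition**: a parabolic homomorphism into a torsion-free abelian group is a finite
sum `∑ e_j • c_j` with `c_j ∈ Λ` -/
theorem exists_decomp {A : Type*} [AddCommGroup A] [IsAddTorsionFree A]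
    (c : Additive (Gamma0 N) →+ A) (hc : IsParabolicHom (Gamma0 N) c) :
    ∃ (n : ℕ) (e : Fin n → A) (cs : Fin n → Lam N), c = ∑ j, smulLam (e j) (cs j) := by
  classical
  obtain ⟨S, hS, hSfin⟩ := Group.fg_iff.mp (Fermat.Agent.S22.groupFG_Gamma0 N)
  haveI : Finite S := hSfin
  let W : Submodule ℤ A := Submodule.span ℤ (Set.range fun s : S => c (Additive.ofMul (s : Gamma0 N)))
  have hWfg : W.FG := Submodule.fg_span (Set.finite_range _)
  haveI : Module.Finite ℤ W := Module.Finite.iff_fg.mpr hWfg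
  haveI : Module.Free ℤ W := Module.free_of_finite_type_torsion_free'
  have hmem : ∀ γ, c γ ∈ W := fun γ =>
    hom_mem_of_closure hS c W.toAddSubgroup
      (fun s hs => Submodule.subset_span ⟨⟨s, hs⟩, rfl⟩) γ
  let cW : Additive (Gamma0 N) →+ W := c.codRestrict W hmem
  let b := Module.finBasis ℤ W
  refine ⟨Module.finrank ℤ W, fun j => ((b j : W) : A),
    fun j => ⟨(b.coord j).toAddMonoidHom.comp cW, fun γ hγ => ?_⟩, ?_⟩
  · show b.coord j (cW (Additive.ofMul γ)) = 0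
    have h0 : cW (Additive.ofMul γ) = 0 := Subtype.ext (hc γ hγ)
    rw [h0, map_zero]
  · refine AddMonoidHom.ext fun γ => ?_
    have h1 : W.subtype (∑ i, (b.repr (cW γ)) i • b i) = W.subtype (cW γ) :=
      congrArg W.subtype (b.sum_repr (cW γ))
    rw [map_sum] at h1
    rw [AddMonoidHom.finsetSum_apply]
    exact h1.symm

/-! ### evaluation of noncommutative polynomials at the Hecke operators -/

variable (N) (S : Set ℕ)

/-- the index set of the Hecke operators `T_ℓ`, `ℓ ∤ N`, `ℓ ∉ S` -/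
abbrev HIdx : Type := {ℓ : ℕ // ℓ.Prime ∧ ¬ ℓ ∣ N ∧ ℓ ∉ S}

/-- `T_ℓ` on `Λ` -/
def TparI (i : HIdx N S) : Module.End ℤ (Lam N) := Tpar i.2.1 i.2.2.1

/-- `T_ℓ` on `S₂(Γ₀(N))` -/
def TformI (i : HIdx N S) : Module.End ℂ (CuspForm (Gamma0 N) 2) :=
  CuspForm.heckeTLin 2 i.2.1 i.2.2.1

/-- evaluation at the `T_ℓ` on `Λ` -/
def evPar : FreeAlgebra ℤ (HIdx N S) →ₐ[ℤ] Module.End ℤ (Lam N) :=
  FreeAlgebra.lift ℤ (TparI N S)

/-- evaluation at the `T_ℓ` on `S₂(Γ₀(N))` -/
def evForm : FreeAlgebra ℤ (HIdx N S) →ₐ[ℤ] Module.End ℂ (CuspForm (Gamma0 N) 2) :=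
  FreeAlgebra.lift ℤ (TformI N S)

/-- evaluation at the `T_ℓ` in the Hecke algebra -/
def evT : FreeAlgebra ℤ (HIdx N S) →ₐ[ℤ] CuspForm.heckeAlgebra N 2 S :=
  FreeAlgebra.lift ℤ (fun i : HIdx N S => CuspForm.heckeAlgebra.T i.2.1 i.2.2.1 i.2.2.2)

@[simp]
theorem evPar_ι (i : HIdx N S) : evPar N S (FreeAlgebra.ι ℤ i) = TparI N S i :=
  FreeAlgebra.lift_ι_apply _ _

@[simp]
theorem evForm_ι (i : HIdx N S) : evForm N S (FreeAlgebra.ι ℤ i) = TformI N S i :=
  FreeAlgebra.lift_ι_apply _ _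

@[simp]
theorem evT_ι (i : HIdx N S) :
    evT N S (FreeAlgebra.ι ℤ i) = CuspForm.heckeAlgebra.T i.2.1 i.2.2.1 i.2.2.2 :=
  FreeAlgebra.lift_ι_apply _ _

theorem coe_evT (P : FreeAlgebra ℤ (HIdx N S)) :
    ((evT N S P : CuspForm.heckeAlgebra N 2 S) :
      Module.End ℂ (CuspForm (Gamma0 N) 2)) = evForm N S P := by
  have h : (CuspForm.heckeAlgebra N 2 S).val.comp (evT N S) = evForm N S := by
    apply FreeAlgebra.hom_ext
    funext i
    show ((evT N S (FreeAlgebra.ι ℤ i) : CuspForm.heckeAlgebra N 2 S) :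
      Module.End ℂ (CuspForm (Gamma0 N) 2)) = evForm N S (FreeAlgebra.ι ℤ i)
    rw [evT_ι, evForm_ι]
    rfl
  exact congrArg (fun φ : FreeAlgebra ℤ (HIdx N S) →ₐ[ℤ] Module.End ℂ (CuspForm (Gamma0 N) 2) =>
    φ P) h

variable {N S}

/-- the compatibility relation between an endomorphism of `Λ` and one of `S₂(Γ₀(N))` -/
def Rel (a : Module.End ℤ (Lam N)) (b : Module.End ℂ (CuspForm (Gamma0 N) 2)) : Prop :=
  ∀ (f : CuspForm (Gamma0 N) 2) (n : ℕ) (e : Fin n → ℂ) (cs : Fin n → Lam N),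
    periodMap N f = ∑ j, smulLam (e j) (cs j) →
    periodMap N (b f) = ∑ j, smulLam (e j) (a (cs j))

theorem rel_algebraMap (r : ℤ) :
    Rel (N := N) (algebraMap ℤ (Module.End ℤ (Lam N)) r)
      (algebraMap ℤ (Module.End ℂ (CuspForm (Gamma0 N) 2)) r) := by
  intro f n e cs hf
  have h1 : (algebraMap ℤ (Module.End ℂ (CuspForm (Gamma0 N) 2)) r) f = r • f := by
    rw [Module.algebraMap_end_apply]
  have h2 : ∀ c : Lam N, (algebraMap ℤ (Module.End ℤ (Lam N)) r) c = r • c := fun c => by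
    rw [Module.algebraMap_end_apply]
  have h3 : periodMap N (r • f) = r • periodMap N f := map_zsmul (periodLin N) r f
  rw [h1, h3, hf, Finset.smul_sum]
  refine Finset.sum_congr rfl (fun j _ => ?_)
  rw [h2, smulLam_zsmul]

theorem rel_gen (i : HIdx N S) : Rel (TparI N S i) (TformI N S i) := by
  intro f n e cs hf
  haveI : Fact i.1.Prime := ⟨i.2.1⟩
  show periodMap N (CuspForm.heckeTLin 2 i.2.1 i.2.2.1 f) = _
  rw [periodMap_heckeT i.2.2.1 f, hf, map_sum]
  refine Finset.sum_congr rfl (fun j _ => ?_)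
  exact heckeHom_smulLam i.2.1 i.2.2.1 (e j) (cs j)

theorem Rel.mul {a a' : Module.End ℤ (Lam N)} {b b' : Module.End ℂ (CuspForm (Gamma0 N) 2)}
    (h : Rel a b) (h' : Rel a' b') : Rel (a * a') (b * b') := by
  intro f n e cs hf
  exact h (b' f) n e (fun j => a' (cs j)) (h' f n e cs hf)

theorem Rel.add {a a' : Module.End ℤ (Lam N)} {b b' : Module.End ℂ (CuspForm (Gamma0 N) 2)}
    (h : Rel a b) (h' : Rel a' b') : Rel (a + a') (b + b') := by
  intro f n e cs hf
  have h1 : periodMap N ((b + b') f) = periodMap N (b f) + periodMap N (b' f) :=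
    map_add (periodLin N) (b f) (b' f)
  rw [h1, h f n e cs hf, h' f n e cs hf, ← Finset.sum_add_distrib]
  refine Finset.sum_congr rfl (fun j _ => ?_)
  rw [LinearMap.add_apply, smulLam_add]

theorem rel_ev (P : FreeAlgebra ℤ (HIdx N S)) : Rel (evPar N S P) (evForm N S P) := by
  induction P using FreeAlgebra.induction with
  | grade0 r =>
    rw [AlgHom.commutes, AlgHom.commutes]
    exact rel_algebraMap r
  | grade1 i =>
    rw [evPar_ι, evForm_ι]
    exact rel_gen i
  | mul a b ha hb =>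
    rw [map_mul, map_mul]
    exact ha.mul hb
  | add a b ha hb =>
    rw [map_add, map_add]
    exact ha.add hb

/-- **RES, core**: a relation between the `T_ℓ` on `Λ` holds on `S₂(Γ₀(N))` -/
theorem res_core (P : FreeAlgebra ℤ (HIdx N S)) (hP : evPar N S P = 0) : evForm N S P = 0 := by
  refine LinearMap.ext fun f => ?_
  obtain ⟨n, e, cs, hf⟩ := exists_decomp (periodMap N f)
    (mem_parabolicHoms_iff.mp (periodMap_mem_parabolicHoms (N := N) f))
  have h1 := rel_ev P f n e cs hf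
  rw [hP] at h1
  have h2 : periodMap N (evForm N S P f) = 0 := by
    rw [h1]
    refine Finset.sum_eq_zero (fun j _ => ?_)
    rw [LinearMap.zero_apply, smulLam_zero]
  by_contra hne
  exact periodMap_ne_zero hne h2

theorem res_core_T (P : FreeAlgebra ℤ (HIdx N S)) (hP : evPar N S P = 0) : evT N S P = 0 :=
  Subtype.ext ((coe_evT N S P).trans (res_core P hP))

/-- **RES + SAT** -/
theorem hecke_saturation (N : ℕ) [NeZero N] (S : Set ℕ) :
    ∃ M₀ : ℕ, 0 < M₀ ∧ ∀ (m : ℕ) (P : FreeAlgebra ℤ (HIdx N S)),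
      (∀ c : Lam N, ∃ c' : Lam N, evPar N S P c = m • c') →
      ∃ Q : FreeAlgebra ℤ (HIdx N S), M₀ • evT N S P = m • evT N S Q := by
  obtain ⟨M₀, hM₀, h⟩ := Fermat.Agent.S31.Sat.exists_saturation_bound
    (LinearMap.range (evPar N S).toLinearMap)
  refine ⟨M₀, hM₀, fun m P hP => ?_⟩
  obtain ⟨q, ⟨Q, rfl⟩, hq⟩ := h m (evPar N S P) ⟨P, rfl⟩ hP
  refine ⟨Q, ?_⟩
  have h1 : evPar N S (M₀ • P - m • Q) = 0 := by
    rw [map_sub, map_nsmul, map_nsmul, sub_eq_zero]
    exact hq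
  have h2 := res_core_T (M₀ • P - m • Q) h1
  rw [map_sub, map_nsmul, map_nsmul, sub_eq_zero] at h2
  exact h2

end Fermat.Agent.S31.Lat
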