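import Mathlib
import Fermat.Agent.S31.LatRes

/-!
# C80 (S30), piece EIG-(E2): from an eigenform to a primitive eigenvector in `𝒪' ⊗ Λ`

Input (E1): a nonzero `f ∈ S₂(Γ₀(N))` with `T f = θ(T) f`, `θ : 𝕋 → ℂ` a ring homomorphism with
`ker θ = ker χ`, `χ : 𝕋 → 𝒪'`. Output: a homomorphism `c : Γ₀(N) → 𝒪'`, parabolic, with a value `1`
and `T_ℓ c = χ(T_ℓ) c`; and the corresponding primitive eigenvector in `𝒪' ⊗ Λ`.
-/

set_option autoImplicit false
set_option linter.unusedSectionVars false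
set_option linter.unusedVariables false
set_option linter.style.haveILetI false

noncomputable section

open Matrix.SpecialLinearGroup CongruenceSubgroup
open scoped MatrixGroups
open ModularCurve ModularCurve.Period

namespace Fermat.Agent.S31.Lat

open Fermat.Agent.S29.D1 Fermat.Agent.S21

section Abstract

variable {Γ : Type*} [Group Γ]

/-- scaling a nonzero homomorphism of a finitely generated group into the valuation ring of a
valuation, with one value equal to `1` -/
theorem exists_scale_val [hfg : Group.FG Γ] {K : Type*} [Field K] {Γ₀ : Type*}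
    [LinearOrderedCommGroupWithZero Γ₀] (v : Valuation K Γ₀) (c : Additive Γ →+ K)
    (hc : c ≠ 0) :
    ∃ (u : K) (γ₀ : Γ), u * c (Additive.ofMul γ₀) = 1 ∧ ∀ γ : Additive Γ, v (u * c γ) ≤ 1 := by
  classical
  obtain ⟨S, hS, hSfin⟩ := Group.fg_iff.mp hfg
  have h1 : ∃ s ∈ S, c (Additive.ofMul s) ≠ 0 := by
    by_contra hcon
    push Not at hcon
    apply hc
    refine AddMonoidHom.ext fun γ => ?_
    exact hom_mem_of_closure hS c ⊥ (fun s hs => hcon s hs) γ
  obtain ⟨s₁, hs₁, hs₁0⟩ := h1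
  have hne : hSfin.toFinset.Nonempty := ⟨s₁, hSfin.mem_toFinset.mpr hs₁⟩
  obtain ⟨γ₀, hγ₀, hmax⟩ := Finset.exists_max_image hSfin.toFinset
    (fun s => v (c (Additive.ofMul s))) hne
  have hv0 : v (c (Additive.ofMul γ₀)) ≠ 0 := by
    intro h0
    have h2 := hmax s₁ (hSfin.mem_toFinset.mpr hs₁)
    simp only [h0] at h2
    have h3 : v (c (Additive.ofMul s₁)) = 0 := le_antisymm h2 zero_le
    exact hs₁0 ((map_eq_zero _).mp h3)
  have hc0 : c (Additive.ofMul γ₀) ≠ 0 := fun h => hv0 (by rw [h, map_zero])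
  refine ⟨(c (Additive.ofMul γ₀))⁻¹, γ₀, inv_mul_cancel₀ hc0, fun γ => ?_⟩
  refine induction_of_closure hS
    (fun g => v ((c (Additive.ofMul γ₀))⁻¹ * c (Additive.ofMul g)) ≤ 1) ?_ ?_ ?_ ?_
    (Additive.toMul γ)
  · intro s hs
    rw [map_mul, map_inv₀]
    exact (inv_mul_le_one₀ (zero_lt_iff.mpr hv0)).mpr (hmax s (hSfin.mem_toFinset.mpr hs))
  · show v ((c (Additive.ofMul γ₀))⁻¹ * c 0) ≤ 1
    rw [map_zero, mul_zero, map_zero]
    exact zero_le
  · intro x y hx hy
    show v ((c (Additive.ofMul γ₀))⁻¹ * c (Additive.ofMul x + Additive.ofMul y)) ≤ 1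
    rw [map_add, mul_add]
    exact v.map_add_le hx hy
  · intro x hx
    show v ((c (Additive.ofMul γ₀))⁻¹ * c (-(Additive.ofMul x))) ≤ 1
    rw [map_neg, mul_neg, Valuation.map_neg]
    exact hx

/-- **transfer of a homomorphism** along two ring homomorphisms with the same kernel: a nonzero
`c' : Γ → E` satisfying every `R`-linear relation satisfied by `c : Γ → K` -/
theorem exists_transfer {R : Type*} [CommRing R] {K E : Type*} [Field K] [Field E]
    (θ : R →+* K) (χ : R →+* E) (hker : RingHom.ker θ = RingHom.ker χ)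
    (c : Additive Γ →+ K) (hc : c ≠ 0) :
    ∃ c' : Additive Γ →+ E, c' ≠ 0 ∧
      ∀ {ι : Type} (s : Finset ι) (a : ι → R) (γ : ι → Additive Γ),
        ∑ i ∈ s, θ (a i) * c (γ i) = 0 → ∑ i ∈ s, χ (a i) * c' (γ i) = 0 := by
  classical
  haveI hprime : (RingHom.ker θ).IsPrime := RingHom.ker_isPrime θ
  let R₀ := R ⧸ RingHom.ker θ
  let θ₀ : R₀ →+* K := RingHom.kerLift θ
  have hθ₀ : Function.Injective θ₀ := RingHom.kerLift_injective θ
  let χ₀ : R₀ →+* E := Ideal.Quotient.lift (RingHom.ker θ) χ (fun a ha => by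
    rw [hker] at ha
    exact ha)
  have hχ₀ : Function.Injective χ₀ := by
    rw [injective_iff_map_eq_zero]
    intro x hx
    obtain ⟨a, rfl⟩ := Ideal.Quotient.mk_surjective x
    have h1 : χ a = 0 := hx
    have h2 : a ∈ RingHom.ker θ := by
      rw [hker]
      exact h1
    exact Ideal.Quotient.eq_zero_iff_mem.mpr h2
  let K₀ := FractionRing R₀
  let θ₁ : K₀ →+* K := IsFractionRing.lift hθ₀
  let χ₁ : K₀ →+* E := IsFractionRing.lift hχ₀
  letI : Algebra K₀ K := θ₁.toAlgebra
  -- a nonzero value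
  obtain ⟨γ₁, hγ₁⟩ : ∃ γ, c γ ≠ 0 := by
    by_contra hcon
    push Not at hcon
    exact hc (AddMonoidHom.ext hcon)
  obtain ⟨φ, hφ⟩ : ∃ φ : Module.Dual K₀ K, φ (c γ₁) ≠ 0 := by
    by_contra h
    push Not at h
    exact hγ₁ ((Module.forall_dual_apply_eq_zero_iff K₀ (c γ₁)).mp h)
  refine ⟨(χ₁.toAddMonoidHom.comp φ.toAddMonoidHom).comp c, ?_, ?_⟩
  · intro h
    have h1 := DFunLike.congr_fun h γ₁
    have h2 : χ₁ (φ (c γ₁)) = 0 := h1
    exact hφ ((map_eq_zero χ₁).mp h2)
  · intro ι s a γ hrel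
    show ∑ i ∈ s, χ (a i) * χ₁ (φ (c (γ i))) = 0
    have h1 : ∀ i, θ (a i) * c (γ i)
        = (algebraMap R₀ K₀ (Ideal.Quotient.mk _ (a i))) • c (γ i) := by
      intro i
      rw [Algebra.smul_def]
      congr 1
      show θ (a i) = θ₁ (algebraMap R₀ K₀ (Ideal.Quotient.mk _ (a i)))
      rw [IsFractionRing.lift_algebraMap]
      rfl
    have h2 : ∀ i, χ (a i) = χ₁ (algebraMap R₀ K₀ (Ideal.Quotient.mk _ (a i))) := by
      intro i
      rw [IsFractionRing.lift_algebraMap]
      rfl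
    have h3 := congrArg φ hrel
    rw [map_sum, map_zero] at h3
    have h4 := congrArg χ₁ h3
    rw [map_sum, map_zero] at h4
    rw [← h4]
    refine Finset.sum_congr rfl (fun i _ => ?_)
    rw [h1 i, map_smul, smul_eq_mul, map_mul, ← h2 i]

end Abstract

/-! ### the eigen-homomorphism with values in `𝒪'` -/

section Eigen

variable {N : ℕ} [NeZero N] {S : Set ℕ}
variable {𝒪' : Type*} [CommRing 𝒪'] [IsDomain 𝒪'] [ValuationRing 𝒪']

/-- **EIG-(E2), homomorphism form** -/
theorem exists_eigenHom_of_eigenform (χ : CuspForm.heckeAlgebra N 2 S →+* 𝒪')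
    (f : CuspForm (Gamma0 N) 2) (hf : f ≠ 0) (θ : CuspForm.heckeAlgebra N 2 S →+* ℂ)
    (hker : RingHom.ker θ = RingHom.ker χ)
    (heig : ∀ T : CuspForm.heckeAlgebra N 2 S,
      (T : Module.End ℂ (CuspForm (Gamma0 N) 2)) f = θ T • f) :
    ∃ (c : Additive (Gamma0 N) →+ 𝒪') (γ₀ : Gamma0 N), c (Additive.ofMul γ₀) = 1 ∧
      IsParabolicHom (Gamma0 N) c ∧
      ∀ i : HIdx N S, @heckeHom N i.1 ⟨i.2.1⟩ 𝒪' _ i.2.2.1 c
        = χ (CuspForm.heckeAlgebra.T i.2.1 i.2.2.1 i.2.2.2) • c := by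
  classical
  haveI : Group.FG (Gamma0 N) := Fermat.Agent.S22.groupFG_Gamma0 N
  let E := FractionRing 𝒪'
  let χE : CuspForm.heckeAlgebra N 2 S →+* E := (algebraMap 𝒪' E).comp χ
  have hinj : Function.Injective (algebraMap 𝒪' E) := IsFractionRing.injective 𝒪' E
  have hkerE : RingHom.ker θ = RingHom.ker χE := by
    rw [hker]
    ext a
    rw [RingHom.mem_ker, RingHom.mem_ker]
    show χ a = 0 ↔ algebraMap 𝒪' E (χ a) = 0
    rw [map_eq_zero_iff _ hinj]
  -- the period homomorphism and its eigen-equation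
  have hc0 : periodMap N f ≠ 0 := periodMap_ne_zero hf
  obtain ⟨cE, hcE, hrel⟩ := exists_transfer θ χE hkerE (periodMap N f) hc0
  have hvan : ∀ γ : Additive (Gamma0 N), periodMap N f γ = 0 → cE γ = 0 := by
    intro γ hγ
    have h1 := hrel (ι := Unit) {()} (fun _ => 1) (fun _ => γ)
      (by rw [Finset.sum_singleton, hγ, mul_zero])
    rw [Finset.sum_singleton, map_one, one_mul] at h1
    exact h1
  -- scale into `𝒪'`
  obtain ⟨u, γ₀, hu, huv⟩ := exists_scale_val (ValuationRing.valuation 𝒪' E) cE hcE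
  have hmem : ∀ γ : Additive (Gamma0 N), ∃ a : 𝒪', algebraMap 𝒪' E a = u * cE γ := fun γ =>
    (ValuationRing.mem_integer_iff 𝒪' E _).mp (huv γ)
  choose cfun hcfun using hmem
  let c : Additive (Gamma0 N) →+ 𝒪' :=
    { toFun := cfun
      map_zero' := by
        apply hinj
        rw [hcfun, map_zero, mul_zero, map_zero]
      map_add' := fun γ δ => by
        apply hinj
        rw [hcfun, map_add, map_add, hcfun, hcfun, mul_add] }
  have hc : ∀ γ, algebraMap 𝒪' E (c γ) = u * cE γ := hcfun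
  refine ⟨c, γ₀, ?_, ?_, ?_⟩
  · apply hinj
    rw [hc, hu, map_one]
  · intro γ hγ
    apply hinj
    have h1 : periodMap N f (Additive.ofMul γ) = 0 :=
      (mem_parabolicHoms_iff.mp (periodMap_mem_parabolicHoms (N := N) f)) γ hγ
    rw [hc, hvan _ h1, mul_zero, map_zero]
  · intro i
    haveI : Fact i.1.Prime := ⟨i.2.1⟩
    let Ti : CuspForm.heckeAlgebra N 2 S := CuspForm.heckeAlgebra.T i.2.1 i.2.2.1 i.2.2.2
    refine AddMonoidHom.ext fun γ' => ?_
    obtain ⟨γ, rfl⟩ : ∃ γ : Gamma0 N, Additive.ofMul γ = γ' := ⟨Additive.toMul γ', rfl⟩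
    have hper : ∑ x : OnePoint (ZMod i.1),
        periodMap N f (Additive.ofMul (kap i.2.2.1 γ x))
          = θ Ti * periodMap N f (Additive.ofMul γ) := by
      have h1 := periodMap_heckeT i.2.2.1 f
      have h2 : CuspForm.heckeTLin 2 (Fact.out : i.1.Prime) i.2.2.1 f = θ Ti • f := heig Ti
      rw [h2] at h1
      have h3 := DFunLike.congr_fun h1 (Additive.ofMul γ)
      rw [heckeHom_apply] at h3
      rw [← h3]
      exact DFunLike.congr_fun ((periodLin N).map_smul _ f) (Additive.ofMul γ)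
    have heigE : ∑ x : OnePoint (ZMod i.1), cE (Additive.ofMul (kap i.2.2.1 γ x))
        = χE Ti * cE (Additive.ofMul γ) := by
      have h1 := hrel (ι := Option (OnePoint (ZMod i.1))) Finset.univ
        (fun o => o.elim (-Ti) (fun _ => 1))
        (fun o => o.elim (Additive.ofMul γ) (fun x => Additive.ofMul (kap i.2.2.1 γ x)))
        (by
          rw [Fintype.sum_option]
          simp only [Option.elim_none, Option.elim_some, map_one, one_mul, map_neg]
          rw [hper]
          ring)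
      rw [Fintype.sum_option] at h1
      simp only [Option.elim_none, Option.elim_some, map_one, one_mul, map_neg] at h1
      linear_combination h1
    rw [heckeHom_apply]
    show _ = χ Ti * c (Additive.ofMul γ)
    apply hinj
    rw [map_sum, map_mul, hc]
    simp only [hc]
    rw [← Finset.mul_sum, heigE]
    show u * ((algebraMap 𝒪' E) (χ Ti) * cE (Additive.ofMul γ)) = _
    ring

end Eigen

end Fermat.Agent.S31.Lat
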