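import Mathlib
import Fermat.Agent.S31.LatEig
import Fermat.Agent.S31.EigForm

/-!
# C80 (S30), piece EIG: a primitive eigenvector in `𝒪' ⊗ Λ`

`tensorToHomO : 𝒪' ⊗[ℤ] Λ →ₗ[𝒪'] Hom(Γ₀(N), 𝒪')` is injective and intertwines `1 ⊗ T_ℓ` with
`heckeHom 𝒪'`; hence the eigen-homomorphism of `LatEig` gives `v ∈ 𝒪' ⊗ Λ` with
`(1 ⊗ T_ℓ) v = χ(T_ℓ) v` and a linear functional `φ` with `φ v = 1`.
-/

set_option autoImplicit false
set_option linter.unusedSectionVars false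
set_option linter.unusedVariables false
set_option linter.style.haveILetI false

noncomputable section

open Matrix.SpecialLinearGroup CongruenceSubgroup TensorProduct
open scoped MatrixGroups
open ModularCurve ModularCurve.Period

namespace Fermat.Agent.S31.Lat

open Fermat.Agent.S29.D1 Fermat.Agent.S21

variable {N : ℕ} [NeZero N]
variable (𝒪' : Type*) [CommRing 𝒪']

/-- `c ↦ cast ∘ c` -/
def castLam : Lam N →ₗ[ℤ] (Additive (Gamma0 N) →+ 𝒪') where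
  toFun c := (Int.castAddHom 𝒪').comp c.1
  map_add' c c' := by
    refine AddMonoidHom.ext fun γ => ?_
    show (((c.1 + c'.1) γ : ℤ) : 𝒪') = ((c.1 γ : ℤ) : 𝒪') + ((c'.1 γ : ℤ) : 𝒪')
    rw [AddMonoidHom.add_apply, Int.cast_add]
  map_smul' r c := by
    refine AddMonoidHom.ext fun γ => ?_
    show (((r • c.1) γ : ℤ) : 𝒪') = r • ((c.1 γ : ℤ) : 𝒪')
    rw [AddMonoidHom.smul_apply, smul_eq_mul, Int.cast_mul, zsmul_eq_mul]

@[simp]
theorem castLam_apply (c : Lam N) (γ : Additive (Gamma0 N)) :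
    castLam 𝒪' c γ = ((c.1 γ : ℤ) : 𝒪') := rfl

/-- `e ⊗ c ↦ (γ ↦ e * c γ)` -/
def tensorToHomO : 𝒪' ⊗[ℤ] Lam N →ₗ[𝒪'] (Additive (Gamma0 N) →+ 𝒪') :=
  LinearMap.liftBaseChange 𝒪' (castLam 𝒪')

theorem tensorToHomO_tmul (e : 𝒪') (c : Lam N) :
    tensorToHomO 𝒪' (e ⊗ₜ[ℤ] c) = smulLam e c := by
  rw [tensorToHomO, LinearMap.liftBaseChange_tmul]
  refine AddMonoidHom.ext fun γ => ?_
  show e * ((c.1 γ : ℤ) : 𝒪') = c.1 γ • e
  rw [zsmul_eq_mul, mul_comm]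

/-- `tensorToHomO` intertwines `1 ⊗ T_ℓ` and `heckeHom 𝒪'` -/
theorem tensorToHomO_baseChange {ℓ : ℕ} (hℓ : ℓ.Prime) (hℓN : ¬ ℓ ∣ N) (v : 𝒪' ⊗[ℤ] Lam N) :
    tensorToHomO 𝒪' ((Tpar hℓ hℓN).baseChange 𝒪' v)
      = @heckeHom N ℓ ⟨hℓ⟩ 𝒪' _ hℓN (tensorToHomO 𝒪' v) := by
  induction v using TensorProduct.induction_on with
  | zero => rw [map_zero, map_zero, map_zero]
  | tmul e c =>
    rw [LinearMap.baseChange_tmul, tensorToHomO_tmul, tensorToHomO_tmul, heckeHom_smulLam]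
  | add x y hx hy => rw [map_add, map_add, hx, hy, map_add, map_add]

/-- evaluation at a set, with values in `𝒪'` -/
def evalAtO {Γ : Type*} [Group Γ] (S : Set Γ) : (Additive Γ →+ 𝒪') →ₗ[𝒪'] (S → 𝒪') where
  toFun c := fun s => c (Additive.ofMul (s : Γ))
  map_add' _ _ := rfl
  map_smul' _ _ := rfl

variable [IsDomain 𝒪'] [CharZero 𝒪']

/-- **`tensorToHomO` is injective** (`𝒪'` is flat over `ℤ`) -/
theorem tensorToHomO_injective : Function.Injective (tensorToHomO (N := N) 𝒪') := by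
  classical
  obtain ⟨S, hS, hSfin⟩ := Group.fg_iff.mp (Fermat.Agent.S22.groupFG_Gamma0 N)
  haveI : Finite S := hSfin
  haveI : Fintype S := Fintype.ofFinite S
  let f : Lam N →ₗ[ℤ] (S → ℤ) := (evalAt S).comp (parabolicHoms ℤ (Gamma0 N) ℤ).subtype
  have hf : Function.Injective f := (evalAt_injective hS).comp Subtype.val_injective
  have h1 : Function.Injective (f.lTensor 𝒪') :=
    Module.Flat.lTensor_preserves_injective_linearMap f hf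
  have h2 : Function.Injective
      (fun v : 𝒪' ⊗[ℤ] Lam N => TensorProduct.piScalarRight ℤ 𝒪' 𝒪' S (f.lTensor 𝒪' v)) :=
    (TensorProduct.piScalarRight ℤ 𝒪' 𝒪' S).injective.comp h1
  have h3 : ∀ v : 𝒪' ⊗[ℤ] Lam N,
      TensorProduct.piScalarRight ℤ 𝒪' 𝒪' S (f.lTensor 𝒪' v)
        = evalAtO 𝒪' S (tensorToHomO 𝒪' v) := by
    intro v
    induction v using TensorProduct.induction_on with
    | zero => rw [map_zero, map_zero, map_zero, map_zero]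
    | tmul e c =>
      rw [LinearMap.lTensor_tmul, tensorToHomO_tmul]
      funext s
      rw [TensorProduct.piScalarRight_apply, TensorProduct.piScalarRightHom_tmul]
      rfl
    | add x y hx hy => rw [map_add, map_add, hx, hy, map_add, map_add]
  intro v w hvw
  apply h2
  show TensorProduct.piScalarRight ℤ 𝒪' 𝒪' S (f.lTensor 𝒪' v)
    = TensorProduct.piScalarRight ℤ 𝒪' 𝒪' S (f.lTensor 𝒪' w)
  rw [h3, h3, hvw]

variable {𝒪'}

/-- from the homomorphism form to the tensor form -/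
theorem exists_tensor_of_hom (c : Additive (Gamma0 N) →+ 𝒪')
    (hc : IsParabolicHom (Gamma0 N) c) : ∃ v : 𝒪' ⊗[ℤ] Lam N, tensorToHomO 𝒪' v = c := by
  obtain ⟨n, e, cs, h⟩ := exists_decomp c hc
  refine ⟨∑ j, e j ⊗ₜ[ℤ] cs j, ?_⟩
  rw [map_sum, h]
  exact Finset.sum_congr rfl (fun j _ => tensorToHomO_tmul 𝒪' (e j) (cs j))

/-- **EIG** (from the data of (E1)) -/
theorem exists_eigenclass_of_eigenform [ValuationRing 𝒪'] {S : Set ℕ}
    (χ : CuspForm.heckeAlgebra N 2 S →+* 𝒪')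
    (f : CuspForm (Gamma0 N) 2) (hf : f ≠ 0) (θ : CuspForm.heckeAlgebra N 2 S →+* ℂ)
    (hker : RingHom.ker θ = RingHom.ker χ)
    (heig : ∀ T : CuspForm.heckeAlgebra N 2 S,
      (T : Module.End ℂ (CuspForm (Gamma0 N) 2)) f = θ T • f) :
    ∃ v : 𝒪' ⊗[ℤ] Lam N, (∃ φ : 𝒪' ⊗[ℤ] Lam N →ₗ[𝒪'] 𝒪', φ v = 1) ∧
      ∀ (ℓ : ℕ) (hℓ : ℓ.Prime) (hℓN : ¬ ℓ ∣ N) (hℓS : ℓ ∉ S),
        (Tpar hℓ hℓN).baseChange 𝒪' v = χ (CuspForm.heckeAlgebra.T hℓ hℓN hℓS) • v := by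
  obtain ⟨c, γ₀, hγ₀, hpar, hceig⟩ := exists_eigenHom_of_eigenform χ f hf θ hker heig
  obtain ⟨v, hv⟩ := exists_tensor_of_hom c hpar
  refine ⟨v, ⟨?_, ?_⟩, fun ℓ hℓ hℓN hℓS => ?_⟩
  · exact
      { toFun := fun w => tensorToHomO 𝒪' w (Additive.ofMul γ₀)
        map_add' := fun x y => by rw [map_add, AddMonoidHom.add_apply]
        map_smul' := fun r x => by rw [map_smul]; rfl }
  · show tensorToHomO 𝒪' v (Additive.ofMul γ₀) = 1
    rw [hv, hγ₀]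
  · apply tensorToHomO_injective 𝒪'
    rw [tensorToHomO_baseChange, map_smul, hv]
    exact hceig ⟨ℓ, hℓ, hℓN, hℓS⟩

/-- **EIG**, final form -/
theorem exists_eigenclass_O [ValuationRing 𝒪'] {S : Set ℕ}
    (χ : CuspForm.heckeAlgebra N 2 S →+* 𝒪') :
    ∃ v : 𝒪' ⊗[ℤ] Lam N, (∃ φ : 𝒪' ⊗[ℤ] Lam N →ₗ[𝒪'] 𝒪', φ v = 1) ∧
      ∀ (ℓ : ℕ) (hℓ : ℓ.Prime) (hℓN : ¬ ℓ ∣ N) (hℓS : ℓ ∉ S),
        (Tpar hℓ hℓN).baseChange 𝒪' v = χ (CuspForm.heckeAlgebra.T hℓ hℓN hℓS) • v := by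
  obtain ⟨f, θ, hf, heig, hker⟩ := Fermat.Agent.S31.Eig.exists_eigenform N S χ
  exact exists_eigenclass_of_eigenform χ f hf θ hker heig

end Fermat.Agent.S31.Lat
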