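import Mathlib

/-!
# C80 (S31), piece MAIN, part 1: Lucas polynomials

`lucasV d m` is the polynomial `V_m(X, d)` with `x ^ m + y ^ m = V_m(x + y, x y)`.
* `quadratic_pow`: if `x` commutes with `t` and `x² - t x + d = 0` then
  `(x ^ m)² - V_m(t, d) x ^ m + d ^ m = 0`;
* `trace_pow_eq`: for an endomorphism `f` of a free module of rank two with characteristic
  polynomial `X² - t X + d`, `tr (f ^ m) = V_m(t, d)`.
-/

set_option autoImplicit false
set_option linter.unusedSectionVars false
set_option linter.unusedVariables false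
set_option linter.style.haveILetI false

noncomputable section

namespace Fermat.Agent.S31.Main

open Polynomial

/-- Lucas polynomials: `V₀ = 2`, `V₁ = X`, `V_{m+2} = X V_{m+1} - d V_m` -/
def lucasV (d : ℤ) : ℕ → Polynomial ℤ
  | 0 => 2
  | 1 => X
  | (m + 2) => X * lucasV d (m + 1) - C d * lucasV d m

@[simp] theorem lucasV_zero (d : ℤ) : lucasV d 0 = 2 := by rw [lucasV]

@[simp] theorem lucasV_one (d : ℤ) : lucasV d 1 = X := by rw [lucasV]

theorem lucasV_succ_succ (d : ℤ) (m : ℕ) :
    lucasV d (m + 2) = X * lucasV d (m + 1) - C d * lucasV d m := by rw [lucasV]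

section Ring

variable {A : Type*} [Ring A]

theorem aeval_lucasV_succ_succ (d : ℤ) (t : A) (m : ℕ) :
    aeval t (lucasV d (m + 2)) = t * aeval t (lucasV d (m + 1)) - (d : A) * aeval t (lucasV d m) := by
  rw [lucasV_succ_succ, map_sub, map_mul, map_mul, aeval_X, aeval_C]
  simp

theorem pow_add_pow_eq (d : ℤ) (x y : A) (hxy : x * y = (d : A)) (hyx : y * x = (d : A)) :
    ∀ m : ℕ, x ^ m + y ^ m = aeval (x + y) (lucasV d m) ∧
      x ^ (m + 1) + y ^ (m + 1) = aeval (x + y) (lucasV d (m + 1))
  | 0 => by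
    refine ⟨?_, ?_⟩
    · rw [lucasV_zero, pow_zero, pow_zero, map_ofNat, one_add_one_eq_two]
    · rw [lucasV_one, aeval_X, pow_one, pow_one]
  | (m + 1) => by
    obtain ⟨h1, h2⟩ := pow_add_pow_eq d x y hxy hyx m
    refine ⟨h2, ?_⟩
    rw [show m + 1 + 1 = m + 2 from rfl, aeval_lucasV_succ_succ, ← h1, ← h2]
    have e1 : x * y ^ (m + 1) = (d : A) * y ^ m := by
      rw [pow_succ', ← mul_assoc, hxy]
    have e2 : y * x ^ (m + 1) = (d : A) * x ^ m := by
      rw [pow_succ', ← mul_assoc, hyx]
    rw [add_mul, mul_add, mul_add, e1, e2, ← pow_succ', ← pow_succ', mul_add]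
    abel

/-- **Lucas.** -/
theorem quadratic_pow (d : ℤ) (x t : A) (hc : x * t = t * x)
    (h : x * x - t * x + (d : A) = 0) (m : ℕ) :
    x ^ m * x ^ m - aeval t (lucasV d m) * x ^ m + (d : A) ^ m = 0 := by
  have hd : (d : A) = -(x * x - t * x) := eq_neg_of_add_eq_zero_right h
  have hxy : x * (t - x) = (d : A) := by
    rw [mul_sub, hc, hd]
    abel
  have hyx : (t - x) * x = (d : A) := by
    rw [sub_mul, hd]
    abel
  have h1 := (pow_add_pow_eq d x (t - x) hxy hyx m).1
  rw [add_sub_cancel] at h1
  have hcomm : Commute (t - x) x := by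
    show (t - x) * x = x * (t - x)
    rw [hxy, hyx]
  have h2 : (t - x) ^ m * x ^ m = (d : A) ^ m := by
    rw [← hcomm.mul_pow, hyx]
  rw [← h1, add_mul, h2]
  abel

end Ring

section Trace

variable {T : Type*} [CommRing T] {V : Type*} [AddCommGroup V] [Module T V]
  [Module.Free T V] [Module.Finite T V]

theorem trace_of_charpoly [Nontrivial T] (f : Module.End T V) (t d : T)
    (hrank : Module.finrank T V = 2)
    (hf : LinearMap.charpoly f = X ^ 2 - C t * X + C d) : LinearMap.trace T V f = t := by
  classical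
  let b := Module.Free.chooseBasis T V
  have hcard : Fintype.card (Module.Free.ChooseBasisIndex T V) = 2 := by
    rw [← Module.finrank_eq_card_chooseBasisIndex, hrank]
  haveI : Nonempty (Module.Free.ChooseBasisIndex T V) := by
    rw [← Fintype.card_pos_iff, hcard]
    norm_num
  rw [LinearMap.trace_eq_matrix_trace T b, Matrix.trace_eq_neg_charpoly_coeff, hcard,
    LinearMap.charpoly_toMatrix f b, hf]
  simp [coeff_C]

theorem cayley_hamilton_two (f : Module.End T V) (t d : T)
    (hf : LinearMap.charpoly f = X ^ 2 - C t * X + C d) :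
    f * f - t • f + d • (1 : Module.End T V) = 0 := by
  have h := LinearMap.aeval_self_charpoly f
  rw [hf, map_add, map_sub, map_mul, map_pow, aeval_X, aeval_C, aeval_C,
    Algebra.algebraMap_eq_smul_one, Algebra.algebraMap_eq_smul_one, smul_mul_assoc, one_mul,
    pow_two] at h
  exact h

/-- **traces of powers** -/
theorem trace_pow_eq [Nontrivial T] (f : Module.End T V) (t : T) (d : ℤ)
    (hrank : Module.finrank T V = 2)
    (hf : LinearMap.charpoly f = X ^ 2 - C t * X + C (d : T)) :
    ∀ m : ℕ, LinearMap.trace T V (f ^ m) = aeval t (lucasV d m) ∧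
      LinearMap.trace T V (f ^ (m + 1)) = aeval t (lucasV d (m + 1))
  | 0 => by
    refine ⟨?_, ?_⟩
    · rw [pow_zero, LinearMap.trace_one, hrank, lucasV_zero, map_ofNat]
      norm_num
    · rw [pow_one, lucasV_one, aeval_X]
      exact trace_of_charpoly f t d hrank hf
  | (m + 1) => by
    obtain ⟨h1, h2⟩ := trace_pow_eq f t d hrank hf m
    refine ⟨h2, ?_⟩
    have hch := cayley_hamilton_two f t (d : T) hf
    have e : f ^ (m + 1 + 1) = t • f ^ (m + 1) - (d : T) • f ^ m := by
      have e1 : f * f = t • f - (d : T) • (1 : Module.End T V) := by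
        rw [← sub_eq_zero, ← hch]
        abel
      rw [pow_succ, pow_succ, mul_assoc, e1, mul_sub, mul_smul_comm, mul_smul_comm, mul_one,
        ← pow_succ]
    rw [e, map_sub, map_smul, map_smul, h1, h2, show m + 1 + 1 = m + 2 from rfl,
      aeval_lucasV_succ_succ]
    simp [smul_eq_mul]

end Trace

end Fermat.Agent.S31.Main
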