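import Mathlib
import Fermat.Prelude.Def_CuspForm_HeckeGaloisRepDatum
import Fermat.Agent.S31.MainLucas

/-!
# C80 (S31), piece MAIN, algebra on the datum

From `M₀ • (V_a(T_ℓ) − V_a'(T_ℓ')) = p ^ n • Q` in the Hecke algebra to
`tr ρ(σ ^ a) − tr ρ(σ' ^ a') ∈ 𝔪_T ^ k`.
-/

set_option autoImplicit false

noncomputable section

namespace Fermat.Agent.S31.Main

open Polynomial

/-- a natural number prime to `p` is a unit of a local ring in which `p` is not a unit -/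
theorem isUnit_natCast_of_not_dvd {T : Type*} [CommRing T] [IsLocalRing T] {p : ℕ}
    (hp : p.Prime) (hpT : (p : T) ∈ IsLocalRing.maximalIdeal T) {m : ℕ} (hm : ¬ p ∣ m) :
    IsUnit (m : T) := by
  by_contra hu
  have hmem : (m : T) ∈ IsLocalRing.maximalIdeal T := (IsLocalRing.mem_maximalIdeal _).mpr hu
  have hcop : Nat.Coprime m p := ((Nat.Prime.coprime_iff_not_dvd hp).mpr hm).symm
  have hb : (m : ℤ) * Nat.gcdA m p + (p : ℤ) * Nat.gcdB m p = 1 := by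
    have := Nat.gcd_eq_gcd_ab m p
    rw [hcop.gcd_eq_one] at this
    exact_mod_cast this.symm
  have hT : (m : T) * ((Nat.gcdA m p : ℤ) : T) + (p : T) * ((Nat.gcdB m p : ℤ) : T) = 1 := by
    have := congrArg (Int.cast : ℤ → T) hb
    push_cast at this
    exact this
  have h1 : (1 : T) ∈ IsLocalRing.maximalIdeal T := by
    rw [← hT]
    exact Ideal.add_mem _ (Ideal.mul_mem_right _ _ hmem) (Ideal.mul_mem_right _ _ hpT)
  exact (Ideal.ne_top_iff_one _).mp (IsLocalRing.maximalIdeal.isMaximal T).ne_top h1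

/-- the abstract divisibility step -/
theorem map_mem_pow_of_nsmul_eq {R : Type*} [CommRing R] [IsAddTorsionFree R]
    {T : Type*} [CommRing T] [IsLocalRing T] (π : R →+* T) {p : ℕ} (hp : p.Prime)
    (hpT : (p : T) ∈ IsLocalRing.maximalIdeal T) (M₀ : ℕ) (hM₀ : 0 < M₀) (k n : ℕ)
    (hn : k + padicValNat p M₀ ≤ n) (P Q : R) (hQ : M₀ • P = p ^ n • Q) :
    π P ∈ IsLocalRing.maximalIdeal T ^ k := by
  have : Fact p.Prime := ⟨hp⟩
  set c := padicValNat p M₀ with hc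
  obtain ⟨m', hm', hM⟩ : ∃ m' : ℕ, ¬ p ∣ m' ∧ M₀ = p ^ c * m' := by
    refine ⟨M₀ / p ^ c, ?_, ?_⟩
    · have := Nat.not_dvd_ordCompl hp hM₀.ne'
      rwa [Nat.factorization_def M₀ hp] at this
    · have := Nat.ordProj_mul_ordCompl_eq_self M₀ p
      rw [Nat.factorization_def M₀ hp] at this
      exact this.symm
  have hnc : n = c + (n - c) := by omega
  have h1 : m' • P = p ^ (n - c) • Q := by
    have h2 : p ^ c • (m' • P) = p ^ c • (p ^ (n - c) • Q) := by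
      rw [← mul_nsmul', ← mul_nsmul', ← hM, hQ, ← pow_add, ← hnc]
    exact nsmul_right_injective (pow_ne_zero c hp.ne_zero) h2
  have h3 : (m' : T) * π P = (p : T) ^ (n - c) * π Q := by
    have := congrArg π h1
    rw [map_nsmul, map_nsmul, nsmul_eq_mul, nsmul_eq_mul] at this
    push_cast at this
    exact this
  obtain ⟨u, hu⟩ := isUnit_natCast_of_not_dvd hp hpT hm'
  have h4 : π P = (↑u⁻¹ : T) * ((p : T) ^ (n - c) * π Q) := by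
    rw [← h3, ← hu, ← mul_assoc, Units.inv_mul, one_mul]
  rw [h4]
  have h5 : (p : T) ^ (n - c) ∈ IsLocalRing.maximalIdeal T ^ k :=
    Ideal.pow_le_pow_right (by omega) (Ideal.pow_mem_pow hpT (n - c))
  exact Ideal.mul_mem_left _ _ (Ideal.mul_mem_right _ _ h5)

/-- ring homomorphisms commute with `aeval` over `ℤ` -/
theorem map_aeval_int {R : Type*} [CommRing R] {T : Type*} [CommRing T] (π : R →+* T)
    (x : R) (q : Polynomial ℤ) : π (aeval x q) = aeval (π x) q := by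
  induction q using Polynomial.induction_on with
  | C a => simp
  | add f g hf hg => rw [map_add, map_add, map_add, hf, hg]
  | monomial n a _ =>
    simp only [map_mul, map_pow, aeval_X, eq_intCast, map_intCast]

open CuspForm in
theorem trace_frob_pow_sub_mem {p N : ℕ} [NeZero N] {S : Finset ℕ}
    {𝒪 : Type} [CommRing 𝒪] [IsDomain 𝒪] [IsDiscreteValuationRing 𝒪]
    [IsAdicComplete (IsLocalRing.maximalIdeal 𝒪) 𝒪]
    {θ : heckeAlgebra N 2 (↑S : Set ℕ) →+* IsLocalRing.ResidueField 𝒪}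
    {T : Type} [CommRing T] [IsLocalRing T] [IsNoetherianRing T]
    [IsAdicComplete (IsLocalRing.maximalIdeal T) T]
    [Algebra 𝒪 T] [IsLocalHom (algebraMap 𝒪 T)] [Module.Finite 𝒪 T] [Module.Free 𝒪 T]
    (hp : p.Prime) (hp𝒪 : (p : 𝒪) ∈ IsLocalRing.maximalIdeal 𝒪)
    (H : HeckeGaloisRepDatum N (↑S : Set ℕ) 𝒪 θ T)
    {ℓ : ℕ} (hℓ : ℓ.Prime) (hℓN : ¬ ℓ ∣ N) (hℓS : ℓ ∉ S) {ℓ' : ℕ} (hℓ' : ℓ'.Prime)
    (hℓN' : ¬ ℓ' ∣ N) (hℓS' : ℓ' ∉ S)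
    {A A' : ValuationSubring (AlgebraicClosure ℚ)} (hA : A.LiesOverPrime ℓ)
    (hA' : A'.LiesOverPrime ℓ')
    {σ σ' : AlgebraicClosure ℚ ≃ₐ[ℚ] AlgebraicClosure ℚ} (hσ : A.IsFrobeniusAt σ ℓ)
    (hσ' : A'.IsFrobeniusAt σ' ℓ')
    (a a' : ℕ) (M₀ : ℕ) (hM₀ : 0 < M₀) (k n : ℕ) (hn : k + padicValNat p M₀ ≤ n)
    (Q : heckeAlgebra N 2 (↑S : Set ℕ))
    (hQ : M₀ • (aeval (heckeAlgebra.T hℓ hℓN hℓS) (lucasV (ℓ : ℤ) a)
                 - aeval (heckeAlgebra.T hℓ' hℓN' hℓS') (lucasV (ℓ' : ℤ) a')) = p ^ n • Q) :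
    H.ρ.trace (σ ^ a) - H.ρ.trace (σ' ^ a') ∈ IsLocalRing.maximalIdeal T ^ k := by
  have hpT : (p : T) ∈ IsLocalRing.maximalIdeal T := by
    rw [IsLocalRing.mem_maximalIdeal, mem_nonunits_iff]
    intro hu
    have h1 : IsUnit (algebraMap 𝒪 T (p : 𝒪)) := by rwa [map_natCast]
    have h2 : IsUnit (p : 𝒪) := isUnit_of_map_unit (algebraMap 𝒪 T) _ h1
    exact ((IsLocalRing.mem_maximalIdeal _).mp hp𝒪) h2
  have key := map_mem_pow_of_nsmul_eq H.π hp hpT M₀ hM₀ k n hn _ Q hQ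
  have htr : ∀ {ℓ₁ : ℕ} (hℓ₁ : ℓ₁.Prime) (hℓN₁ : ¬ ℓ₁ ∣ N) (hℓS₁ : ℓ₁ ∉ S)
      {A₁ : ValuationSubring (AlgebraicClosure ℚ)} (_ : A₁.LiesOverPrime ℓ₁)
      {σ₁ : AlgebraicClosure ℚ ≃ₐ[ℚ] AlgebraicClosure ℚ} (_ : A₁.IsFrobeniusAt σ₁ ℓ₁) (a₁ : ℕ),
      H.ρ.trace (σ₁ ^ a₁) =
        H.π (aeval (heckeAlgebra.T hℓ₁ hℓN₁ hℓS₁) (lucasV (ℓ₁ : ℤ) a₁)) := by
    intro ℓ₁ hℓ₁ hℓN₁ hℓS₁ A₁ hA₁ σ₁ hσ₁ a₁
    have hf : LinearMap.charpoly (H.ρ.ρ σ₁) =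
        X ^ 2 - C (H.π (heckeAlgebra.T hℓ₁ hℓN₁ hℓS₁)) * X + C (((ℓ₁ : ℤ) : T)) := by
      rw [Int.cast_natCast]
      exact H.charpoly_frob ℓ₁ hℓ₁ hℓN₁ hℓS₁ A₁ hA₁ σ₁ hσ₁
    have h1 := (trace_pow_eq (H.ρ.ρ σ₁) (H.π (heckeAlgebra.T hℓ₁ hℓN₁ hℓS₁)) (ℓ₁ : ℤ)
      H.ρ.finrank_eq hf a₁).1
    rw [map_aeval_int]
    show LinearMap.trace T H.ρ.V (H.ρ.ρ (σ₁ ^ a₁)) = _
    rw [map_pow]
    exact h1
  rw [htr hℓ hℓN hℓS hA hσ a, htr hℓ' hℓN' hℓS' hA' hσ' a', ← map_sub]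
  exact key

end Fermat.Agent.S31.Main
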