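import Mathlib
import Fermat.Agent.S31.MainLucas

/-!
# C80 (S31), piece MAIN, part 3: the Lucas relation on the `p`-power torsion of a module with
a group action, and polynomial equivariance
-/

set_option autoImplicit false
set_option linter.unusedSectionVars false
set_option linter.unusedVariables false
set_option linter.style.haveILetI false

noncomputable section

namespace Fermat.Agent.S31.Main

open Polynomial

section Equivariance

variable {M M' : Type*} [AddCommGroup M] [AddCommGroup M']

/-- an additive map intertwining two endomorphisms intertwines their polynomials -/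
theorem aeval_intertwine (Θ : M →+ M') (t : Module.End ℤ M) (t' : Module.End ℤ M')
    (h : ∀ c, Θ (t c) = t' (Θ c)) (f : Polynomial ℤ) (c : M) :
    Θ (aeval t f c) = aeval t' f (Θ c) := by
  induction f using Polynomial.induction_on generalizing c with
  | C a =>
    rw [aeval_C, aeval_C, Algebra.algebraMap_eq_smul_one, Algebra.algebraMap_eq_smul_one,
      LinearMap.smul_apply, LinearMap.smul_apply, Module.End.one_apply, Module.End.one_apply,
      map_zsmul]
  | add f g hf hg =>
    rw [map_add, map_add, LinearMap.add_apply, LinearMap.add_apply, map_add, hf, hg]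
  | monomial n a ih =>
    have e : (C a * X ^ (n + 1) : Polynomial ℤ) = C a * X ^ n * X := by
      rw [pow_succ, mul_assoc]
    have e1 : aeval t (C a * X ^ n * X) = aeval t (C a * X ^ n) * t := by
      rw [map_mul, aeval_X]
    have e2 : aeval t' (C a * X ^ n * X) = aeval t' (C a * X ^ n) * t' := by
      rw [map_mul, aeval_X]
    rw [e, e1, e2, Module.End.mul_apply, Module.End.mul_apply, ih, h]

end Equivariance

section Torsion

variable (p : ℕ) (J : Type*) [AddCommGroup J]

/-- the `p`-power torsion -/
def ptors : Submodule ℤ J where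
  carrier := {x | ∃ n : ℕ, p ^ n • x = 0}
  zero_mem' := ⟨0, by simp⟩
  add_mem' := by
    rintro x y ⟨n, hn⟩ ⟨m, hm⟩
    refine ⟨n + m, ?_⟩
    rw [nsmul_add, pow_add, mul_nsmul, hn, nsmul_zero, mul_comm, mul_nsmul, hm, nsmul_zero,
      add_zero]
  smul_mem' := by
    rintro c x ⟨n, hn⟩
    exact ⟨n, by rw [smul_comm, hn, smul_zero]⟩

theorem mem_ptors {x : J} : x ∈ ptors p J ↔ ∃ n : ℕ, p ^ n • x = 0 := Iff.rfl

theorem map_mem_ptors (f : Module.End ℤ J) {x : J} (hx : x ∈ ptors p J) : f x ∈ ptors p J := by
  obtain ⟨n, hn⟩ := hx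
  exact ⟨n, by rw [← map_nsmul, hn, map_zero]⟩

/-- restriction of endomorphisms to the `p`-power torsion -/
def resP : Module.End ℤ J →+* Module.End ℤ (ptors p J) where
  toFun f := f.restrict fun _ hx => map_mem_ptors p J f hx
  map_one' := rfl
  map_mul' _ _ := rfl
  map_zero' := rfl
  map_add' _ _ := rfl

theorem coe_resP (f : Module.End ℤ J) (x : ptors p J) :
    ((resP p J f x : ptors p J) : J) = f x := rfl

theorem resP_aeval (t : Module.End ℤ J) (f : Polynomial ℤ) :
    aeval (resP p J t) f = resP p J (aeval t f) :=
  Polynomial.aeval_algHom_apply (resP p J).toIntAlgHom t f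

variable {p J}

/-- **the Lucas relation on the `p`-power torsion** -/
theorem lucas_torsion {G : Type*} [Group G] [DistribMulAction G J] (σ : G)
    (t : Module.End ℤ J) (d : ℤ) (hcomm : ∀ x : J, t (σ • x) = σ • t x)
    (hrel : ∀ x : J, (∃ n : ℕ, p ^ n • x = 0) → σ • σ • x - t (σ • x) + d • x = 0)
    (a : ℕ) (x : J) (hx : ∃ n : ℕ, p ^ n • x = 0) :
    σ ^ a • σ ^ a • x - aeval t (lucasV d a) (σ ^ a • x) + d ^ a • x = 0 := by
  let gE : G →* Module.End ℤ J := DistribMulAction.toModuleEnd ℤ J
  have hgE : ∀ (τ : G) (y : J), gE τ y = τ • y := fun _ _ => rfl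
  have hc : resP p J (gE σ) * resP p J t = resP p J t * resP p J (gE σ) := by
    rw [← map_mul, ← map_mul]
    congr 1
    ext y
    rw [Module.End.mul_apply, Module.End.mul_apply, hgE, hgE, hcomm]
  have h : resP p J (gE σ) * resP p J (gE σ) - resP p J t * resP p J (gE σ)
      + ((d : ℤ) : Module.End ℤ (ptors p J)) = 0 := by
    ext y
    rw [LinearMap.add_apply, LinearMap.sub_apply, Module.End.mul_apply, Module.End.mul_apply,
      Module.End.intCast_apply, LinearMap.zero_apply]
    simp only [Submodule.coe_add, Submodule.coe_sub, coe_resP, Submodule.coe_smul,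
      Submodule.coe_zero, hgE]
    exact hrel y y.2
  have key := quadratic_pow d (resP p J (gE σ)) (resP p J t) hc h a
  rw [← map_pow, ← map_pow, resP_aeval, ← Int.cast_pow] at key
  have key2 := congrArg (fun F : Module.End ℤ (ptors p J) => ((F ⟨x, hx⟩ : ptors p J) : J)) key
  simp only [LinearMap.add_apply, LinearMap.sub_apply, Module.End.mul_apply,
    Module.End.intCast_apply, LinearMap.zero_apply, Submodule.coe_add, Submodule.coe_sub,
    coe_resP, Submodule.coe_smul, Submodule.coe_zero, hgE] at key2
  exact key2

end Torsion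

end Fermat.Agent.S31.Main
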