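import Mathlib
import Fermat.Agent.S31.MainTors
import Fermat.Agent.S31.Lat
import Fermat.Agent.S31.Cyclo
import Fermat.Agent.S29.ThetaJ
import Fermat.Agent.S29.ESRel
import Fermat.Agent.S29.FinLevel
import Fermat.Agent.S29.HeckeGal
import Fermat.Agent.S37.Final
import Fermat.Agent.Lib.FrobDensity.Generates

/-!
# C80 (S31), piece MAIN, part 4: the geometric core

For `h` in the inertia group at `q ∤ N p`, `g` arbitrary, `n` and a number field `L`: there are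
Frobenius elements `σ`, `σ'` at primes `ℓ, ℓ' ∉ S` and exponents `a, a'` with `g ≡ σ ^ a`,
`g h ≡ σ' ^ a'` on `L`, such that `V_a(T_ℓ, ℓ) - V_a'(T_ℓ', ℓ')` maps `Λ` into `p ^ n Λ`.
-/

set_option autoImplicit false
set_option linter.unusedSectionVars false
set_option linter.unusedVariables false
set_option linter.style.haveILetI false

noncomputable section

namespace Fermat.Agent.S31.Main

open Polynomial ModularCurve Fermat.Agent.S31.Lat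

local notation "Qb" => AlgebraicClosure ℚ
local notation "Gal" => (AlgebraicClosure ℚ ≃ₐ[ℚ] AlgebraicClosure ℚ)

variable {N : ℕ} [NeZero N]

/-- the Galois action on `J₀(N)` as an additive map -/
def galAdd (N : ℕ) (σ : Gal) : JZero N →+ JZero N := DistribSMul.toAddMonoidHom (JZero N) σ

theorem galAdd_apply (σ : Gal) (x : JZero N) : galAdd N σ x = σ • x := rfl

/-- polynomials in `T_ℓ` commute with the Galois action -/
theorem aeval_hecke_smul (ℓ : Nat.Primes) (f : Polynomial ℤ) (σ : Gal) (x : JZero N) :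
    aeval (heckeOperatorBar N ℓ) f (σ • x) = σ • aeval (heckeOperatorBar N ℓ) f x :=
  (aeval_intertwine (galAdd N σ) (heckeOperatorBar N ℓ) (heckeOperatorBar N ℓ)
    (fun c => (Fermat.Agent.S29.E2.heckeOperatorBar_smul N ℓ σ c).symm) f x).symm

/-- the Lucas relation for a power of a Frobenius element on the `p`-power torsion -/
theorem frob_pow_relation (p : ℕ) {ℓ : ℕ} (hℓ : ℓ.Prime) (hℓNp : ¬ ℓ ∣ N * p)
    {A : ValuationSubring Qb} (hA : A.LiesOverPrime ℓ) {σ : Gal} (hσ : A.IsFrobeniusAt σ ℓ)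
    (a : ℕ) (x : JZero N) (hx : ∃ n : ℕ, p ^ n • x = 0) :
    σ ^ a • σ ^ a • x - aeval (heckeOperatorBar N ⟨ℓ, hℓ⟩) (lucasV (ℓ : ℤ) a) (σ ^ a • x)
      + (ℓ : ℤ) ^ a • x = 0 := by
  have h0 := Fermat.Agent.S37.Z.hasRedPkg N p ℓ hℓ hℓNp A hA
  exact lucas_torsion (p := p) σ (heckeOperatorBar N ⟨ℓ, hℓ⟩) (ℓ : ℤ)
    (fun y => Fermat.Agent.S29.E2.heckeOperatorBar_smul N ⟨ℓ, hℓ⟩ σ y)
    (fun y hy => Fermat.Agent.S29.frobenius_relation h0 hσ hy) a x hx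

/-- the algebraic heart: two quadratic relations for `g` with the same constant term force the
two linear terms to agree -/
theorem hecke_eq_of_relations {J : Type*} [AddCommGroup J] {G : Type*} [Group G]
    [DistribMulAction G J] (g s s' : G) (τ τ' : Module.End ℤ J) (e e' : ℤ) (y : J)
    (h1 : s • s • y - τ (s • y) + e • y = 0) (h2 : s' • s' • y - τ' (s' • y) + e' • y = 0)
    (hs : s • y = g • y) (hs2 : s • (g • y) = g • g • y)
    (hs' : s' • y = g • y) (hs2' : s' • (g • y) = g • g • y)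
    (he : (e - e') • y = 0)
    (hτ : τ (g • y) = g • τ y) (hτ' : τ' (g • y) = g • τ' y) : τ y = τ' y := by
  rw [hs, hs2, hτ] at h1
  rw [hs', hs2', hτ'] at h2
  have h3 : g • τ y = g • τ' y := by
    have e1 : g • τ y = g • g • y + e • y := by
      rw [sub_add_eq_add_sub, sub_eq_zero] at h1
      exact h1.symm
    have e2 : g • τ' y = g • g • y + e' • y := by
      rw [sub_add_eq_add_sub, sub_eq_zero] at h2
      exact h2.symm
    rw [e1, e2]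
    rw [sub_smul, sub_eq_zero] at he
    rw [he]
  exact MulAction.injective g h3

/-- a finite generating family of `Λ` -/
theorem exists_finset_span_lam (N : ℕ) [NeZero N] :
    ∃ s : Finset (Lam N), Submodule.span ℤ (s : Set (Lam N)) = ⊤ :=
  (Module.Finite.fg_top (R := ℤ) (M := Lam N))

/-- a number field fixing the Galois orbits of all points of `Θ(Λ)` -/
theorem exists_fixing_theta (Θ : Lam N →+ JZero N) :
    ∃ K : IntermediateField ℚ Qb, FiniteDimensional ℚ K ∧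
      ∀ u : Gal, (∀ x ∈ K, u x = x) → ∀ (c : Lam N) (τ : Gal), u • (τ • Θ c) = τ • Θ c := by
  classical
  obtain ⟨s, hs⟩ := exists_finset_span_lam N
  obtain ⟨K, hK, h⟩ := Fermat.Agent.S29.E1.exists_fixing_orbits N (s.image Θ)
  refine ⟨K, hK, fun u hu c τ => ?_⟩
  have key : ((galAdd N u).comp ((galAdd N τ).comp Θ)).toIntLinearMap
      = ((galAdd N τ).comp Θ).toIntLinearMap := by
    apply LinearMap.ext_on hs
    intro x hx
    exact h u hu (Θ x) (Finset.mem_image_of_mem Θ hx) τ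
  exact LinearMap.congr_fun key c


/-- agreement on a level fixing the orbits of `Θ(Λ)` gives agreement of the actions -/
theorem smul_theta_eq_of_agree (Θ : Lam N →+ JZero N) {K₁ K : IntermediateField ℚ Qb}
    (hK : K₁ ≤ K)
    (hfix : ∀ u : Gal, (∀ x ∈ K₁, u x = x) → ∀ (c : Lam N) (τ : Gal),
      u • (τ • Θ c) = τ • Θ c)
    {g s : Gal} (hgs : ∀ x ∈ K, g x = s x) (c : Lam N) (τ : Gal) :
    s • (τ • Θ c) = g • (τ • Θ c) := by
  have hu : ∀ x ∈ K₁, (g⁻¹ * s) x = x := by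
    intro x hx
    rw [AlgEquiv.mul_apply, ← hgs x (hK hx)]
    exact g.symm_apply_apply x
  have h1 := hfix (g⁻¹ * s) hu c τ
  have h2 : g • ((g⁻¹ * s) • (τ • Θ c)) = g • (τ • Θ c) := by rw [h1]
  rw [← mul_smul, mul_inv_cancel_left] at h2
  exact h2

/-- the cyclotomic character of a power of a Frobenius element -/
theorem chiM_frob_pow (m : ℕ) [NeZero m] {ℓ : ℕ} (hℓ : ℓ.Prime) (hℓm : ¬ ℓ ∣ m)
    {A : ValuationSubring Qb} (hA : A.LiesOverPrime ℓ) {σ : Gal} (hσ : A.IsFrobeniusAt σ ℓ)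
    (a : ℕ) :
    (((Fermat.Agent.S31.Cyc.chiM m (σ ^ a) : (ZMod m)ˣ) : ZMod m)) = ((ℓ : ℤ) ^ a : ℤ) := by
  haveI : Fact ℓ.Prime := ⟨hℓ⟩
  rw [map_pow, Units.val_pow_eq_pow_val, Fermat.Agent.S31.Cyc.chiM_frobenius m A ℓ hA hℓm σ hσ]
  push_cast
  rfl

/-- agreement on a level of the cyclotomic character gives equality of the characters -/
theorem chiM_eq_of_agree (m : ℕ) [NeZero m] {K₂ K : IntermediateField ℚ Qb} (hK : K₂ ≤ K)
    (hχ : ∀ σ : Gal, (∀ x ∈ K₂, σ x = x) → Fermat.Agent.S31.Cyc.chiM m σ = 1)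
    {g s : Gal} (hgs : ∀ x ∈ K, g x = s x) :
    Fermat.Agent.S31.Cyc.chiM m g = Fermat.Agent.S31.Cyc.chiM m s := by
  have hu : ∀ x ∈ K₂, (g⁻¹ * s) x = x := by
    intro x hx
    rw [AlgEquiv.mul_apply, ← hgs x (hK hx)]
    exact g.symm_apply_apply x
  have h1 := hχ (g⁻¹ * s) hu
  rw [map_mul, map_inv, inv_mul_eq_one] at h1
  exact h1

/-- **the geometric core of S31** -/
theorem exists_frob_pair {p : ℕ} (hp : p.Prime) {S : Finset ℕ} (hpS : p ∈ S)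
    (hNS : ∀ q : ℕ, q.Prime → q ∣ N → q ∈ S)
    {q : ℕ} (hq : q.Prime) (hqS : q ∉ S) {P : ValuationSubring Qb} (hP : P.LiesOverPrime q)
    {h : Gal} (hh : h ∈ P.inertiaSubgroupIn ℚ) (g : Gal) (n : ℕ)
    (L : IntermediateField ℚ Qb) (hL : FiniteDimensional ℚ L) :
    ∃ (ℓ : ℕ) (hℓ : ℓ.Prime) (hℓN : ¬ ℓ ∣ N) (hℓS : ℓ ∉ S)
      (ℓ' : ℕ) (hℓ' : ℓ'.Prime) (hℓN' : ¬ ℓ' ∣ N) (hℓS' : ℓ' ∉ S)
      (A A' : ValuationSubring Qb) (σ σ' : Gal) (a a' : ℕ),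
      A.LiesOverPrime ℓ ∧ A'.LiesOverPrime ℓ' ∧ A.IsFrobeniusAt σ ℓ ∧ A'.IsFrobeniusAt σ' ℓ' ∧
      (∀ x ∈ L, g x = (σ ^ a) x) ∧ (∀ x ∈ L, (g * h) x = (σ' ^ a') x) ∧
      ∀ c : Lam N, ∃ c' : Lam N,
        aeval (Tpar hℓ hℓN) (lucasV (ℓ : ℤ) a) c - aeval (Tpar hℓ' hℓN') (lucasV (ℓ' : ℤ) a') c
          = (p ^ n) • c' := by
  classical
  haveI : NeZero (p ^ n) := ⟨pow_ne_zero _ hp.ne_zero⟩
  obtain ⟨Θ, hΘ1, hΘ2, hΘ3⟩ := Fermat.Agent.S29.ThetaJ.exists_theta_Lam N (p ^ n)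
  obtain ⟨K₁, hK₁, hfix⟩ := exists_fixing_theta Θ
  obtain ⟨K₂, hK₂, hχ⟩ := Fermat.Agent.S31.Cyc.chiM_finiteLevel (p ^ n)
  haveI := hL
  haveI := hK₁
  haveI := hK₂
  have hK : FiniteDimensional ℚ (L ⊔ K₁ ⊔ K₂ : IntermediateField ℚ Qb) := inferInstance
  have hLK : L ≤ L ⊔ K₁ ⊔ K₂ := le_sup_left.trans le_sup_left
  have hK₁K : K₁ ≤ L ⊔ K₁ ⊔ K₂ := le_sup_right.trans le_sup_left
  have hK₂K : K₂ ≤ L ⊔ K₁ ⊔ K₂ := le_sup_right
  obtain ⟨ℓ, A, σ, a, hℓ, hℓS, hA, hσ, hg⟩ :=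
    Fermat.Agent.Lib.FrobDensity.frobeniusGenerates _ hK S g
  obtain ⟨ℓ', A', σ', a', hℓ', hℓS', hA', hσ', hgh⟩ :=
    Fermat.Agent.Lib.FrobDensity.frobeniusGenerates _ hK S (g * h)
  have hℓN : ¬ ℓ ∣ N := fun hd => hℓS (hNS ℓ hℓ hd)
  have hℓN' : ¬ ℓ' ∣ N := fun hd => hℓS' (hNS ℓ' hℓ' hd)
  have hqN : ¬ q ∣ N := fun hd => hqS (hNS q hq hd)
  have hnp : ∀ {r : ℕ}, r.Prime → r ∉ S → ¬ r ∣ p := by
    intro r hr hrS hd
    have := (Nat.prime_dvd_prime_iff_eq hr hp).mp hd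
    exact hrS (this ▸ hpS)
  have hnNp : ∀ {r : ℕ}, r.Prime → r ∉ S → ¬ r ∣ N * p := by
    intro r hr hrS hd
    rcases hr.dvd_mul.mp hd with h1 | h1
    · exact hrS (hNS r hr h1)
    · exact hnp hr hrS h1
  have hnpn : ∀ {r : ℕ}, r.Prime → r ∉ S → ¬ r ∣ p ^ n := by
    intro r hr hrS hd
    exact hnp hr hrS (hr.dvd_of_dvd_pow hd)
  refine ⟨ℓ, hℓ, hℓN, hℓS, ℓ', hℓ', hℓN', hℓS', A, A', σ, σ', a, a', hA, hA', hσ, hσ',
    fun x hx => hg x (hLK hx), fun x hx => hgh x (hLK hx), fun c => ?_⟩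
  apply hΘ2
  rw [map_sub, aeval_intertwine Θ (Tpar hℓ hℓN) (heckeOperatorBar N ⟨ℓ, hℓ⟩) (hΘ3 ℓ hℓ hℓN),
    aeval_intertwine Θ (Tpar hℓ' hℓN') (heckeOperatorBar N ⟨ℓ', hℓ'⟩) (hΘ3 ℓ' hℓ' hℓN'),
    sub_eq_zero]
  have hy : ∃ k : ℕ, p ^ k • Θ c = 0 := ⟨n, hΘ1 c⟩
  have hPkg := Fermat.Agent.S37.Z.hasRedPkg N p q hq (hnNp hq hqS) P hP
  -- the actions
  have hs : ∀ τ : Gal, σ ^ a • (τ • Θ c) = g • (τ • Θ c) :=
    fun τ => smul_theta_eq_of_agree Θ hK₁K hfix hg c τ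
  have hs' : ∀ τ : Gal, σ' ^ a' • (τ • Θ c) = g • (τ • Θ c) := by
    intro τ
    rw [smul_theta_eq_of_agree Θ hK₁K hfix hgh c τ, mul_smul,
      Fermat.Agent.S29.inertia_smul_eq hPkg hh (Fermat.Agent.S29.torsion_gal_smul τ hy)]
  have h1 := hs 1
  have h1' := hs' 1
  rw [one_smul] at h1 h1'
  -- the cyclotomic character
  have hc1 : Fermat.Agent.S31.Cyc.chiM (p ^ n) g = Fermat.Agent.S31.Cyc.chiM (p ^ n) (σ ^ a) :=
    chiM_eq_of_agree (p ^ n) hK₂K hχ hg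
  have hc2 : Fermat.Agent.S31.Cyc.chiM (p ^ n) (g * h)
      = Fermat.Agent.S31.Cyc.chiM (p ^ n) (σ' ^ a') :=
    chiM_eq_of_agree (p ^ n) hK₂K hχ hgh
  have hc3 : Fermat.Agent.S31.Cyc.chiM (p ^ n) h = 1 := by
    haveI : Fact q.Prime := ⟨hq⟩
    exact Fermat.Agent.S31.Cyc.chiM_inertia (p ^ n) P q hP (hnpn hq hqS) h hh
  rw [map_mul, hc3, mul_one, hc1] at hc2
  have hc4 := congrArg Units.val hc2
  rw [chiM_frob_pow (p ^ n) hℓ (hnpn hℓ hℓS) hA hσ a,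
    chiM_frob_pow (p ^ n) hℓ' (hnpn hℓ' hℓS') hA' hσ' a'] at hc4
  have hdvd : ((p ^ n : ℕ) : ℤ) ∣ (ℓ : ℤ) ^ a - (ℓ' : ℤ) ^ a' := by
    rw [← ZMod.intCast_zmod_eq_zero_iff_dvd]
    push_cast
    rw [sub_eq_zero]
    exact_mod_cast hc4
  have he : ((ℓ : ℤ) ^ a - (ℓ' : ℤ) ^ a') • Θ c = 0 := by
    obtain ⟨k, hk⟩ := hdvd
    rw [hk, mul_comm, mul_smul, natCast_zsmul, hΘ1 c, smul_zero]
  exact hecke_eq_of_relations g (σ ^ a) (σ' ^ a') _ _ _ _ (Θ c)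
    (frob_pow_relation p hℓ (hnNp hℓ hℓS) hA hσ a (Θ c) hy)
    (frob_pow_relation p hℓ' (hnNp hℓ' hℓS') hA' hσ' a' (Θ c) hy)
    h1 (hs g) h1' (hs' g) he
    (aeval_hecke_smul ⟨ℓ, hℓ⟩ _ g (Θ c)) (aeval_hecke_smul ⟨ℓ', hℓ'⟩ _ g (Θ c))

end Fermat.Agent.S31.Main
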