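import Mathlib
import Fermat.Prelude.Def_GaloisRep_Adic

/-!
# C80 (S31), piece MAIN, part 2: the trace of an adically continuous representation is
continuous
-/

set_option autoImplicit false
set_option linter.unusedSectionVars false
set_option linter.unusedVariables false
set_option linter.style.haveILetI false

noncomputable section

namespace Fermat.Agent.S31.Main

local notation "Qb" => AlgebraicClosure ℚ
local notation "Gal" => (AlgebraicClosure ℚ ≃ₐ[ℚ] AlgebraicClosure ℚ)

section Algebra

variable {T : Type*} [CommRing T] {V : Type*} [AddCommGroup V] [Module T V]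

theorem repr_mem_of_mem_smul {ι : Type*} (b : Module.Basis ι T V) (I : Ideal T) {x : V}
    (hx : x ∈ I • (⊤ : Submodule T V)) (i : ι) : b.repr x i ∈ I := by
  refine Submodule.smul_induction_on (p := fun x => b.repr x i ∈ I) hx ?_ ?_
  · intro a ha w _
    rw [map_smul, Finsupp.smul_apply, smul_eq_mul]
    exact I.mul_mem_right _ ha
  · intro x y hx hy
    rw [map_add, Finsupp.add_apply]
    exact I.add_mem hx hy

variable [Module.Free T V] [Module.Finite T V]

/-- the trace of an endomorphism with values in `I V` lies in `I` -/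
theorem trace_mem_of_forall_mem (I : Ideal T) (f : Module.End T V)
    (hf : ∀ v, f v ∈ I • (⊤ : Submodule T V)) : LinearMap.trace T V f ∈ I := by
  classical
  let b := Module.Free.chooseBasis T V
  rw [LinearMap.trace_eq_matrix_trace T b, Matrix.trace]
  refine I.sum_mem fun i _ => ?_
  rw [Matrix.diag_apply, LinearMap.toMatrix_apply]
  exact repr_mem_of_mem_smul b I (hf _) i

theorem map_mem_smul_top (I : Ideal T) (f : Module.End T V) {x : V}
    (hx : x ∈ I • (⊤ : Submodule T V)) : f x ∈ I • (⊤ : Submodule T V) := by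
  refine Submodule.smul_induction_on (p := fun x => f x ∈ I • (⊤ : Submodule T V)) hx ?_ ?_
  · intro a ha w _
    rw [map_smul]
    exact Submodule.smul_mem_smul ha Submodule.mem_top
  · intro x y hx hy
    rw [map_add]
    exact Submodule.add_mem _ hx hy

end Algebra

variable {T : Type} [CommRing T] [IsLocalRing T]

/-- the trace of `ρ` is continuous: modulo `𝔪 ^ k` it only depends on the restriction to a
number field -/
theorem exists_trace_level (ρ : GaloisRepAdic T) (k : ℕ) :
    ∃ L : IntermediateField ℚ Qb, FiniteDimensional ℚ L ∧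
      ∀ σ τ : Gal, (∀ x ∈ L, σ x = τ x) →
        ρ.trace σ - ρ.trace τ ∈ IsLocalRing.maximalIdeal T ^ k := by
  obtain ⟨L, hL, h⟩ := ρ.isAdicContinuous k
  refine ⟨L, hL, fun σ τ hστ => ?_⟩
  have hu : ∀ x ∈ L, (τ⁻¹ * σ) x = x := fun x hx => by
    show τ⁻¹ (σ x) = x
    rw [hστ x hx]
    exact τ.symm_apply_apply x
  have e : ρ.ρ σ = ρ.ρ τ * ρ.ρ (τ⁻¹ * σ) := by
    rw [← map_mul, mul_inv_cancel_left]
  have e2 : ρ.trace σ - ρ.trace τ
      = LinearMap.trace T ρ.V (ρ.ρ τ * (ρ.ρ (τ⁻¹ * σ) - 1)) := by
    unfold GaloisRepAdic.trace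
    rw [e, mul_sub, mul_one, map_sub]
  rw [e2]
  refine trace_mem_of_forall_mem _ _ fun v => ?_
  rw [Module.End.mul_apply]
  refine map_mem_smul_top _ _ ?_
  rw [LinearMap.sub_apply, Module.End.one_apply]
  exact h _ hu v

end Fermat.Agent.S31.Main
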