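import Mathlib

/-!
# C80 (S31/S30), piece R, part 1: Burnside's theorem in dimension two

Let `K` be an algebraically closed field and `S` a submonoid of `M₂(K)` which leaves no line of
`K²` stable.  Then `S` spans `M₂(K)`.
-/

set_option autoImplicit false

open Matrix

namespace Fermat.Agent.S31.R

variable {K : Type*} [Field K]

/-! ### Linear algebra in `K²` -/

/-- two vectors of `K²` with nonzero determinant span `K²` -/
theorem exists_comb_of_det_ne_zero {φ ψ : Fin 2 → K} (h : φ 0 * ψ 1 - φ 1 * ψ 0 ≠ 0)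
    (χ : Fin 2 → K) : ∃ a b : K, χ = a • φ + b • ψ := by
  refine ⟨(χ 0 * ψ 1 - χ 1 * ψ 0) / (φ 0 * ψ 1 - φ 1 * ψ 0),
    (φ 0 * χ 1 - φ 1 * χ 0) / (φ 0 * ψ 1 - φ 1 * ψ 0), ?_⟩
  funext i
  fin_cases i
  · simp only [Fin.zero_eta, Pi.add_apply, Pi.smul_apply, smul_eq_mul]
    rw [div_mul_eq_mul_div, div_mul_eq_mul_div, ← add_div, eq_div_iff h]
    ring
  · simp only [Fin.mk_one, Pi.add_apply, Pi.smul_apply, smul_eq_mul]
    rw [div_mul_eq_mul_div, div_mul_eq_mul_div, ← add_div, eq_div_iff h]
    ring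

/-- two vectors of `K²` with zero determinant, the first nonzero: the second is a multiple -/
theorem exists_smul_of_det_eq_zero {φ ψ : Fin 2 → K} (hφ : φ ≠ 0)
    (h : φ 0 * ψ 1 - φ 1 * ψ 0 = 0) : ∃ c : K, ψ = c • φ := by
  by_cases h0 : φ 0 = 0
  · have h1 : φ 1 ≠ 0 := by
      intro h1
      apply hφ
      funext i
      fin_cases i
      · exact h0
      · exact h1
    have hψ0 : ψ 0 = 0 := by
      rw [h0, zero_mul, zero_sub, neg_eq_zero] at h
      exact (mul_eq_zero.mp h).resolve_left h1
    refine ⟨ψ 1 / φ 1, ?_⟩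
    funext i
    fin_cases i
    · simp [h0, hψ0]
    · simp only [Fin.mk_one, Pi.smul_apply, smul_eq_mul]
      field_simp
  · refine ⟨ψ 0 / φ 0, ?_⟩
    funext i
    fin_cases i
    · simp only [Fin.zero_eta, Pi.smul_apply, smul_eq_mul]
      field_simp
    · simp only [Fin.mk_one, Pi.smul_apply, smul_eq_mul]
      field_simp
      linear_combination h

/-- a nonzero `2 × 2` matrix of determinant zero is a product column · row -/
theorem exists_vecMulVec_of_det_eq_zero {r : Matrix (Fin 2) (Fin 2) K} (hr : r ≠ 0)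
    (hdet : r.det = 0) : ∃ v φ : Fin 2 → K, v ≠ 0 ∧ φ ≠ 0 ∧ r = vecMulVec v φ := by
  rw [Matrix.det_fin_two] at hdet
  by_cases hrow : r 0 = 0
  · -- first row zero
    have h1 : r 1 ≠ 0 := by
      intro h1
      apply hr
      ext i j
      fin_cases i
      · exact congrFun hrow j
      · exact congrFun h1 j
    refine ⟨![0, 1], r 1, ?_, h1, ?_⟩
    · intro h
      have := congrFun h 1
      simp at this
    · ext i j
      fin_cases i
      · simpa [vecMulVec_apply] using congrFun hrow j
      · simp [vecMulVec_apply]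
  · -- first row nonzero: second row is a multiple
    obtain ⟨c, hc⟩ := exists_smul_of_det_eq_zero (φ := r 0) (ψ := r 1) hrow
      (by linear_combination hdet)
    refine ⟨![1, c], r 0, ?_, hrow, ?_⟩
    · intro h
      have := congrFun h 0
      simp at this
    · ext i j
      fin_cases i
      · simp [vecMulVec_apply]
      · have := congrFun hc j
        simpa [vecMulVec_apply] using this

/-! ### Burnside -/

variable (S : Submonoid (Matrix (Fin 2) (Fin 2) K))

/-- irreducibility of the action on column vectors -/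
def Irr : Prop :=
  ∀ U : Submodule K (Fin 2 → K), (∀ s ∈ S, ∀ x ∈ U, s *ᵥ x ∈ U) → U = ⊥ ∨ U = ⊤

variable {S}

theorem span_mul_mem {a b : Matrix (Fin 2) (Fin 2) K}
    (ha : a ∈ Submodule.span K (S : Set (Matrix (Fin 2) (Fin 2) K)))
    (hb : b ∈ Submodule.span K (S : Set (Matrix (Fin 2) (Fin 2) K))) :
    a * b ∈ Submodule.span K (S : Set (Matrix (Fin 2) (Fin 2) K)) := by
  induction ha using Submodule.span_induction with
  | mem x hx =>
    induction hb using Submodule.span_induction with
    | mem y hy => exact Submodule.subset_span (S.mul_mem hx hy)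
    | zero => rw [mul_zero]; exact Submodule.zero_mem _
    | add y z _ _ hy hz => rw [mul_add]; exact Submodule.add_mem _ hy hz
    | smul c y _ hy => rw [mul_smul_comm]; exact Submodule.smul_mem _ c hy
  | zero => rw [zero_mul]; exact Submodule.zero_mem _
  | add x y _ _ hx hy => rw [add_mul]; exact Submodule.add_mem _ hx hy
  | smul c x _ hx => rw [smul_mul_assoc]; exact Submodule.smul_mem _ c hx

theorem one_mem_span : (1 : Matrix (Fin 2) (Fin 2) K) ∈
    Submodule.span K (S : Set (Matrix (Fin 2) (Fin 2) K)) :=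
  Submodule.subset_span S.one_mem

/-- transitivity on column vectors -/
theorem exists_mulVec_eq (hS : Irr S) {v : Fin 2 → K} (hv : v ≠ 0) (u : Fin 2 → K) :
    ∃ a ∈ Submodule.span K (S : Set (Matrix (Fin 2) (Fin 2) K)), a *ᵥ v = u := by
  let ev : Matrix (Fin 2) (Fin 2) K →ₗ[K] (Fin 2 → K) :=
    { toFun := fun a => a *ᵥ v
      map_add' := fun a b => Matrix.add_mulVec a b v
      map_smul' := fun c a => Matrix.smul_mulVec c a v }
  let U : Submodule K (Fin 2 → K) :=
    (Submodule.span K (S : Set (Matrix (Fin 2) (Fin 2) K))).map ev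
  have hU : ∀ s ∈ S, ∀ x ∈ U, s *ᵥ x ∈ U := by
    rintro s hs _ ⟨a, ha, rfl⟩
    refine ⟨s * a, span_mul_mem (Submodule.subset_span hs) ha, ?_⟩
    show (s * a) *ᵥ v = s *ᵥ (a *ᵥ v)
    rw [Matrix.mulVec_mulVec]
  have hvU : v ∈ U := ⟨1, one_mem_span, Matrix.one_mulVec v⟩
  rcases hS U hU with h | h
  · rw [h, Submodule.mem_bot] at hvU
    exact absurd hvU hv
  · have : u ∈ U := by rw [h]; exact Submodule.mem_top
    obtain ⟨a, ha, hau⟩ := this
    exact ⟨a, ha, hau⟩

/-- transitivity on row vectors -/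
theorem exists_vecMul_eq (hS : Irr S) {φ : Fin 2 → K} (hφ : φ ≠ 0) (ψ : Fin 2 → K) :
    ∃ b ∈ Submodule.span K (S : Set (Matrix (Fin 2) (Fin 2) K)), φ ᵥ* b = ψ := by
  classical
  by_cases hex : ∃ b ∈ Submodule.span K (S : Set (Matrix (Fin 2) (Fin 2) K)),
      φ 0 * (φ ᵥ* b) 1 - φ 1 * (φ ᵥ* b) 0 ≠ 0
  · obtain ⟨b, hb, hdet⟩ := hex
    obtain ⟨c, d, hcd⟩ := exists_comb_of_det_ne_zero hdet ψ
    refine ⟨c • 1 + d • b, Submodule.add_mem _ (Submodule.smul_mem _ c one_mem_span)
      (Submodule.smul_mem _ d hb), ?_⟩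
    rw [Matrix.vecMul_add, Matrix.vecMul_smul, Matrix.vecMul_smul, Matrix.vecMul_one]
    exact hcd.symm
  · exfalso
    simp only [not_exists, not_and, not_not] at hex
    -- the kernel of `φ` is a stable line
    let U : Submodule K (Fin 2 → K) :=
      { carrier := {x | φ ⬝ᵥ x = 0}
        zero_mem' := by simp
        add_mem' := fun {x y} hx hy => by
          show φ ⬝ᵥ (x + y) = 0
          rw [dotProduct_add, hx, hy, add_zero]
        smul_mem' := fun c x hx => by
          show φ ⬝ᵥ (c • x) = 0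
          rw [dotProduct_smul, hx, smul_zero] }
    have hU : ∀ s ∈ S, ∀ x ∈ U, s *ᵥ x ∈ U := by
      intro s hs x hx
      obtain ⟨c, hc⟩ := exists_smul_of_det_eq_zero hφ (hex s (Submodule.subset_span hs))
      show φ ⬝ᵥ (s *ᵥ x) = 0
      rw [Matrix.dotProduct_mulVec, hc, smul_dotProduct, hx, smul_zero]
    rcases hS U hU with h | h
    · have hmem : ![-φ 1, φ 0] ∈ U := by
        show φ ⬝ᵥ ![-φ 1, φ 0] = 0
        simp [dotProduct, Fin.sum_univ_two]
        ring
      rw [h, Submodule.mem_bot] at hmem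
      apply hφ
      funext i
      fin_cases i
      · have := congrFun hmem 1
        simpa using this
      · have := congrFun hmem 0
        simpa using this
    · apply hφ
      funext i
      have hmem : (Pi.single i 1 : Fin 2 → K) ∈ U := by rw [h]; exact Submodule.mem_top
      have : φ ⬝ᵥ (Pi.single i 1 : Fin 2 → K) = 0 := hmem
      simpa using this

/-- **Burnside's theorem in dimension two.** -/
theorem span_eq_top [IsAlgClosed K] (hS : Irr S) :
    Submodule.span K (S : Set (Matrix (Fin 2) (Fin 2) K)) = ⊤ := by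
  classical
  -- a nonzero element of determinant zero
  obtain ⟨a, ha, hav⟩ := exists_mulVec_eq hS (v := Pi.single 0 1)
    (by intro h; have := congrFun h 0; simp at this) (Pi.single 1 1)
  obtain ⟨μ, hμ⟩ := IsAlgClosed.exists_root (a.charpoly)
    (by rw [Matrix.charpoly_degree_eq_dim]; simp)
  have hr : a - μ • (1 : Matrix (Fin 2) (Fin 2) K) ∈
      Submodule.span K (S : Set (Matrix (Fin 2) (Fin 2) K)) :=
    Submodule.sub_mem _ ha (Submodule.smul_mem _ μ one_mem_span)
  have hr0 : a - μ • (1 : Matrix (Fin 2) (Fin 2) K) ≠ 0 := by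
    intro h
    have h1 : a = μ • (1 : Matrix (Fin 2) (Fin 2) K) := sub_eq_zero.mp h
    rw [h1] at hav
    have := congrFun hav 1
    simp at this
  have hdet : (a - μ • (1 : Matrix (Fin 2) (Fin 2) K)).det = 0 := by
    have h1 : Polynomial.eval μ a.charpoly = 0 := hμ
    rw [Matrix.eval_charpoly] at h1
    have h2 : (a - μ • (1 : Matrix (Fin 2) (Fin 2) K)) =
        -(Matrix.scalar (Fin 2) μ - a) := by
      rw [neg_sub]
      congr 1
      ext i j
      simp [Matrix.scalar_apply, Matrix.smul_apply, Matrix.one_apply, Matrix.diagonal_apply]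
    rw [h2, Matrix.det_neg, h1, mul_zero]
  obtain ⟨v, φ, hv, hφ, hrv⟩ := exists_vecMulVec_of_det_eq_zero hr0 hdet
  rw [hrv] at hr
  -- all matrix units are in the span
  have hunit : ∀ i j : Fin 2, Matrix.single i j (1 : K) ∈
      Submodule.span K (S : Set (Matrix (Fin 2) (Fin 2) K)) := by
    intro i j
    obtain ⟨b, hb, hbv⟩ := exists_mulVec_eq hS hv (Pi.single i 1)
    obtain ⟨c, hc, hcφ⟩ := exists_vecMul_eq hS hφ (Pi.single j 1)
    have h1 := span_mul_mem (span_mul_mem hb hr) hc
    rw [Matrix.mul_vecMulVec, Matrix.vecMulVec_mul, hbv, hcφ,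
      ← Matrix.single_eq_single_vecMulVec_single] at h1
    exact h1
  rw [eq_top_iff]
  intro M _
  rw [Matrix.matrix_eq_sum_single M]
  refine Submodule.sum_mem _ fun i _ => Submodule.sum_mem _ fun j _ => ?_
  have : Matrix.single i j (M i j) = M i j • Matrix.single i j (1 : K) := by
    rw [Matrix.smul_single, smul_eq_mul, mul_one]
  rw [this]
  exact Submodule.smul_mem _ _ (hunit i j)

end Fermat.Agent.S31.R
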