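import Mathlib
import Fermat.Agent.S31.Burnside

/-!
# C80 (S31/S30), piece R, part 2: trace rigidity for matrix representations over a local ring

`T` a local ring with residue field `k`, `K` an algebraically closed extension of `k`,
`r : G →* M₂(T)` whose image in `M₂(K)` is irreducible.  If `tr r(g h) = tr r(g)` for all `g`,
then `r h = 1`.
-/

set_option autoImplicit false

open Matrix

namespace Fermat.Agent.S31.R

/-! ### the trace form -/

theorem eq_zero_of_trace_mul {R : Type*} [CommRing R] (X : Matrix (Fin 2) (Fin 2) R)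
    (h : ∀ s : Matrix (Fin 2) (Fin 2) R, (s * X).trace = 0) : X = 0 := by
  ext i j
  have := h (Matrix.single j i 1)
  fin_cases i <;> fin_cases j <;>
    simpa [Matrix.trace, Matrix.mul_apply, Fin.sum_univ_two, Matrix.single_apply] using this

theorem trace_mul_eq_zero_of_span {R : Type*} [CommRing R]
    (A : Set (Matrix (Fin 2) (Fin 2) R)) (X : Matrix (Fin 2) (Fin 2) R)
    (h : ∀ s ∈ A, (s * X).trace = 0) {s : Matrix (Fin 2) (Fin 2) R}
    (hs : s ∈ Submodule.span R A) : (s * X).trace = 0 := by
  induction hs using Submodule.span_induction with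
  | mem x hx => exact h x hx
  | zero => rw [zero_mul, Matrix.trace_zero]
  | add x y _ _ hx hy => rw [add_mul, Matrix.trace_add, hx, hy, add_zero]
  | smul c x _ hx => rw [smul_mul_assoc, Matrix.trace_smul, hx, smul_zero]

theorem eq_zero_of_span_eq_top {R : Type*} [CommRing R]
    (A : Set (Matrix (Fin 2) (Fin 2) R)) (hA : Submodule.span R A = ⊤)
    (X : Matrix (Fin 2) (Fin 2) R) (h : ∀ s ∈ A, (s * X).trace = 0) : X = 0 :=
  eq_zero_of_trace_mul X fun s =>
    trace_mul_eq_zero_of_span A X h (by rw [hA]; exact Submodule.mem_top)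

/-! ### descent of the span along a field extension -/

theorem span_eq_top_of_map {k K : Type*} [Field k] [Field K] (φ : k →+* K)
    (A : Set (Matrix (Fin 2) (Fin 2) k))
    (h : Submodule.span K ((fun M : Matrix (Fin 2) (Fin 2) k => M.map φ) '' A) = ⊤) :
    Submodule.span k A = ⊤ := by
  by_contra hne
  obtain ⟨f, hf0, hf⟩ := Submodule.exists_le_ker_of_lt_top _ (lt_top_iff_ne_top.mpr hne)
  apply hf0
  -- `f = tr(· X)`
  let X : Matrix (Fin 2) (Fin 2) k := fun i j => f (Matrix.single j i 1)
  have hfX : ∀ M : Matrix (Fin 2) (Fin 2) k, f M = (M * X).trace := by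
    intro M
    conv_lhs => rw [Matrix.matrix_eq_sum_single M]
    simp only [map_sum]
    have : ∀ i j : Fin 2, f (Matrix.single i j (M i j)) = M i j * X j i := by
      intro i j
      have h1 : Matrix.single i j (M i j) = M i j • Matrix.single i j (1 : k) := by
        rw [Matrix.smul_single, smul_eq_mul, mul_one]
      rw [h1, map_smul, smul_eq_mul]
    simp only [this, Matrix.trace, Matrix.diag_apply, Matrix.mul_apply]
  have hXK : X.map φ = 0 := by
    refine eq_zero_of_span_eq_top _ h _ ?_
    rintro _ ⟨M, hM, rfl⟩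
    have h1 : f M = 0 := hf (Submodule.subset_span hM)
    rw [hfX] at h1
    have h2 : (M.map φ * X.map φ).trace = φ ((M * X).trace) := by
      rw [← Matrix.map_mul]
      simp only [Matrix.trace, Matrix.diag_apply, Matrix.map_apply, map_sum]
    rw [h2, h1, map_zero]
  have hX : X = 0 := by
    ext i j
    have := congrFun (congrFun hXK i) j
    simp only [Matrix.map_apply, Matrix.zero_apply] at this
    rw [Matrix.zero_apply]
    exact φ.injective (by rw [this, map_zero])
  ext M
  rw [hfX, hX, mul_zero, Matrix.trace_zero, LinearMap.zero_apply]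

/-! ### Nakayama -/

variable {T : Type*} [CommRing T] [IsLocalRing T]

omit [IsLocalRing T] in
/-- a matrix with entries in an ideal lies in `I • ⊤` -/
theorem mem_smul_top_of_entries (I : Ideal T) (E : Matrix (Fin 2) (Fin 2) T)
    (hE : ∀ i j, E i j ∈ I) :
    E ∈ I • (⊤ : Submodule T (Matrix (Fin 2) (Fin 2) T)) := by
  rw [Matrix.matrix_eq_sum_single E]
  refine Submodule.sum_mem _ fun i _ => Submodule.sum_mem _ fun j _ => ?_
  have : Matrix.single i j (E i j) = E i j • Matrix.single i j (1 : T) := by
    rw [Matrix.smul_single, smul_eq_mul, mul_one]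
  rw [this]
  exact Submodule.smul_mem_smul (hE i j) Submodule.mem_top

theorem span_eq_top_of_residue (A : Set (Matrix (Fin 2) (Fin 2) T))
    (h : Submodule.span (IsLocalRing.ResidueField T)
      ((fun M : Matrix (Fin 2) (Fin 2) T => M.map (IsLocalRing.residue T)) '' A) = ⊤) :
    Submodule.span T A = ⊤ := by
  rw [eq_top_iff]
  refine Submodule.le_of_le_smul_of_le_jacobson_bot (I := IsLocalRing.maximalIdeal T)
    Module.Finite.fg_top (IsLocalRing.maximalIdeal_le_jacobson _) ?_
  intro E _
  -- every element of the span over `k` has a lift in `N ⊔ 𝔪 • ⊤`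
  have key : ∀ m ∈ Submodule.span (IsLocalRing.ResidueField T)
      ((fun M : Matrix (Fin 2) (Fin 2) T => M.map (IsLocalRing.residue T)) '' A),
      ∃ E' ∈ Submodule.span T A ⊔
        IsLocalRing.maximalIdeal T • (⊤ : Submodule T (Matrix (Fin 2) (Fin 2) T)),
        E'.map (IsLocalRing.residue T) = m := by
    intro m hm
    induction hm using Submodule.span_induction with
    | mem x hx =>
      obtain ⟨M, hM, rfl⟩ := hx
      exact ⟨M, Submodule.mem_sup_left (Submodule.subset_span hM), rfl⟩
    | zero => exact ⟨0, Submodule.zero_mem _, by ext i j; simp⟩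
    | add x y _ _ hx hy =>
      obtain ⟨E₁, h₁, rfl⟩ := hx
      obtain ⟨E₂, h₂, rfl⟩ := hy
      exact ⟨E₁ + E₂, Submodule.add_mem _ h₁ h₂, by ext i j; simp⟩
    | smul c x _ hx =>
      obtain ⟨E₁, h₁, rfl⟩ := hx
      obtain ⟨c', rfl⟩ := IsLocalRing.residue_surjective c
      exact ⟨c' • E₁, Submodule.smul_mem _ c' h₁, by ext i j; simp⟩
  obtain ⟨E', hE', hEE'⟩ := key (E.map (IsLocalRing.residue T)) (by rw [h]; exact Submodule.mem_top)
  have hdiff : E - E' ∈
      IsLocalRing.maximalIdeal T • (⊤ : Submodule T (Matrix (Fin 2) (Fin 2) T)) := by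
    refine mem_smul_top_of_entries _ _ fun i j => ?_
    have := congrFun (congrFun hEE' i) j
    simp only [Matrix.map_apply] at this
    rw [Matrix.sub_apply, ← IsLocalRing.residue_eq_zero_iff, map_sub, this, sub_self]
  have : E = E' + (E - E') := by abel
  rw [this]
  exact Submodule.add_mem _ hE' (Submodule.mem_sup_right hdiff)

/-! ### rigidity -/

/-- **Trace rigidity, matrix form.** -/
theorem matrix_eq_one_of_trace {G : Type*} [Monoid G] {K : Type*} [Field K] [IsAlgClosed K]
    (φ : IsLocalRing.ResidueField T →+* K)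
    (r : G →* Matrix (Fin 2) (Fin 2) T)
    (hirr : Irr (MonoidHom.mrange
      ((((φ.comp (IsLocalRing.residue T)).mapMatrix :
        Matrix (Fin 2) (Fin 2) T →+* Matrix (Fin 2) (Fin 2) K) :
        Matrix (Fin 2) (Fin 2) T →* Matrix (Fin 2) (Fin 2) K).comp r)))
    (h : G) (htr : ∀ g, (r (g * h)).trace = (r g).trace) : r h = 1 := by
  have hK := span_eq_top hirr
  -- span over `k`
  have hk : Submodule.span (IsLocalRing.ResidueField T)
      ((fun M : Matrix (Fin 2) (Fin 2) T => M.map (IsLocalRing.residue T)) '' Set.range r)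
      = ⊤ := by
    refine span_eq_top_of_map φ _ ?_
    rw [← hK]
    congr 1
    ext M
    constructor
    · rintro ⟨_, ⟨_, ⟨g, rfl⟩, rfl⟩, rfl⟩
      refine ⟨g, ?_⟩
      ext i j
      simp
    · rintro ⟨g, rfl⟩
      refine ⟨_, ⟨_, ⟨g, rfl⟩, rfl⟩, ?_⟩
      ext i j
      simp
  have hT := span_eq_top_of_residue _ hk
  have h0 : r h - 1 = 0 := by
    refine eq_zero_of_span_eq_top _ hT _ ?_
    rintro _ ⟨g, rfl⟩
    rw [mul_sub, mul_one, Matrix.trace_sub, ← map_mul, htr, sub_self]
  exact sub_eq_zero.mp h0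

end Fermat.Agent.S31.R
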