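import Mathlib
import Fermat.Prelude.Def_GaloisRep_Adic
import Fermat.Agent.S31.RigidAbs

/-!
# C80 (S31/S30), piece R: trace rigidity

`ρ : GaloisRepAdic T` with absolutely irreducible residual representation.  If
`tr ρ(g h) = tr ρ(g)` for all `g`, then `ρ h = 1`.
-/

set_option autoImplicit false

open Matrix
open scoped TensorProduct

namespace Fermat.Agent.S31.R

variable {T : Type} [CommRing T] [IsLocalRing T]

/-- a basis of the underlying module -/
noncomputable def rigBasis (ρ : GaloisRepAdic T) : Module.Basis (Fin 2) T ρ.V :=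
  Module.finBasisOfFinrankEq T ρ.V ρ.finrank_eq

/-- the matrix form of `ρ` -/
noncomputable def rigMat (ρ : GaloisRepAdic T) :
    (AlgebraicClosure ℚ ≃ₐ[ℚ] AlgebraicClosure ℚ) →* Matrix (Fin 2) (Fin 2) T :=
  ((LinearMap.toMatrixAlgEquiv (rigBasis ρ) : Module.End T ρ.V ≃ₐ[T] Matrix (Fin 2) (Fin 2) T) :
    Module.End T ρ.V →* Matrix (Fin 2) (Fin 2) T).comp ρ.ρ

theorem rigMat_apply (ρ : GaloisRepAdic T) (g : AlgebraicClosure ℚ ≃ₐ[ℚ] AlgebraicClosure ℚ) :
    rigMat ρ g = LinearMap.toMatrix (rigBasis ρ) (rigBasis ρ) (ρ.ρ g) := rfl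

theorem trace_rigMat (ρ : GaloisRepAdic T) (g : AlgebraicClosure ℚ ≃ₐ[ℚ] AlgebraicClosure ℚ) :
    (rigMat ρ g).trace = LinearMap.trace T ρ.V (ρ.ρ g) := by
  rw [rigMat_apply, ← LinearMap.trace_eq_matrix_trace]

/-- the induced basis of the geometric residual representation -/
noncomputable def rigBasisBar (ρ : GaloisRepAdic T) :
    Module.Basis (Fin 2) (AlgebraicClosure (IsLocalRing.ResidueField T))
      (ρ.residual.baseChange (AlgebraicClosure (IsLocalRing.ResidueField T))).V :=
  Algebra.TensorProduct.basis (AlgebraicClosure (IsLocalRing.ResidueField T))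
    (Algebra.TensorProduct.basis (IsLocalRing.ResidueField T) (rigBasis ρ))

theorem toMatrix_baseChange_baseChange {T' k K V : Type*} [CommRing T'] [Field k] [Field K]
    [Algebra T' k] [Algebra k K] [AddCommGroup V] [Module T' V]
    (b : Module.Basis (Fin 2) T' V) (f : V →ₗ[T'] V) :
    LinearMap.toMatrix (Algebra.TensorProduct.basis K (Algebra.TensorProduct.basis k b))
      (Algebra.TensorProduct.basis K (Algebra.TensorProduct.basis k b))
      ((f.baseChange k).baseChange K) =
    (LinearMap.toMatrix b b f).map ((algebraMap k K).comp (algebraMap T' k)) := by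
  rw [LinearMap.toMatrix_baseChange, LinearMap.toMatrix_baseChange]
  ext i j
  simp only [Matrix.map_apply, RingHom.comp_apply]

theorem toMatrix_rigBasisBar (ρ : GaloisRepAdic T)
    (g : AlgebraicClosure ℚ ≃ₐ[ℚ] AlgebraicClosure ℚ) :
    LinearMap.toMatrix (rigBasisBar ρ) (rigBasisBar ρ)
      ((ρ.residual.baseChange (AlgebraicClosure (IsLocalRing.ResidueField T))).ρ g) =
    (rigMat ρ g).map ((algebraMap (IsLocalRing.ResidueField T)
      (AlgebraicClosure (IsLocalRing.ResidueField T))).comp (IsLocalRing.residue T)) :=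
  toMatrix_baseChange_baseChange (k := IsLocalRing.ResidueField T)
    (K := AlgebraicClosure (IsLocalRing.ResidueField T)) (rigBasis ρ) (ρ.ρ g)

/-- the geometric residual image is irreducible in the sense of `Irr` -/
theorem irr_of_absIrr (ρ : GaloisRepAdic T) (habs : ρ.residual.IsAbsolutelyIrreducible) :
    Irr (MonoidHom.mrange
      (((((algebraMap (IsLocalRing.ResidueField T)
        (AlgebraicClosure (IsLocalRing.ResidueField T))).comp (IsLocalRing.residue T)).mapMatrix :
        Matrix (Fin 2) (Fin 2) T →+*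
          Matrix (Fin 2) (Fin 2) (AlgebraicClosure (IsLocalRing.ResidueField T))) :
        Matrix (Fin 2) (Fin 2) T →*
          Matrix (Fin 2) (Fin 2) (AlgebraicClosure (IsLocalRing.ResidueField T))).comp
        (rigMat ρ))) := by
  intro U hU
  let e := (rigBasisBar ρ).equivFun
  let W : Submodule (AlgebraicClosure (IsLocalRing.ResidueField T))
      (ρ.residual.baseChange (AlgebraicClosure (IsLocalRing.ResidueField T))).V :=
    U.comap (e : _ →ₗ[AlgebraicClosure (IsLocalRing.ResidueField T)] _)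
  have hW : ∀ σ : AlgebraicClosure ℚ ≃ₐ[ℚ] AlgebraicClosure ℚ, ∀ x ∈ W,
      (ρ.residual.baseChange (AlgebraicClosure (IsLocalRing.ResidueField T))).ρ σ x ∈ W := by
    intro σ x hx
    show e ((ρ.residual.baseChange (AlgebraicClosure (IsLocalRing.ResidueField T))).ρ σ x) ∈ U
    have h1 : e ((ρ.residual.baseChange (AlgebraicClosure (IsLocalRing.ResidueField T))).ρ σ x) =
        (rigMat ρ σ).map ((algebraMap (IsLocalRing.ResidueField T)
          (AlgebraicClosure (IsLocalRing.ResidueField T))).comp (IsLocalRing.residue T)) *ᵥ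
          e x := by
      rw [← toMatrix_rigBasisBar]
      exact (LinearMap.toMatrix_mulVec_repr (rigBasisBar ρ) (rigBasisBar ρ) _ x).symm
    rw [h1]
    exact hU _ ⟨σ, rfl⟩ _ hx
  rcases habs W hW with h | h
  · left
    rw [eq_bot_iff]
    intro u hu
    have : e.symm u ∈ W := by
      show e (e.symm u) ∈ U
      rw [LinearEquiv.apply_symm_apply]
      exact hu
    rw [h, Submodule.mem_bot] at this
    rw [Submodule.mem_bot, ← e.apply_symm_apply u, this, map_zero]
  · right
    rw [eq_top_iff]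
    intro u _
    have : e.symm u ∈ W := by rw [h]; exact Submodule.mem_top
    have h2 : e (e.symm u) ∈ U := this
    rwa [LinearEquiv.apply_symm_apply] at h2

/-- **Trace rigidity.**  If the residual representation of `ρ` is absolutely irreducible and
`tr ρ(g h) = tr ρ(g)` for all `g`, then `ρ h = 1`. -/
theorem eq_one_of_trace (ρ : GaloisRepAdic T) (habs : ρ.residual.IsAbsolutelyIrreducible)
    (h : AlgebraicClosure ℚ ≃ₐ[ℚ] AlgebraicClosure ℚ)
    (htr : ∀ g : AlgebraicClosure ℚ ≃ₐ[ℚ] AlgebraicClosure ℚ,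
      LinearMap.trace T ρ.V (ρ.ρ (g * h)) = LinearMap.trace T ρ.V (ρ.ρ g)) :
    ρ.ρ h = 1 := by
  have h1 : rigMat ρ h = 1 :=
    matrix_eq_one_of_trace (algebraMap (IsLocalRing.ResidueField T)
      (AlgebraicClosure (IsLocalRing.ResidueField T))) (rigMat ρ) (irr_of_absIrr ρ habs) h
      (fun g => by rw [trace_rigMat, trace_rigMat, htr])
  rw [rigMat_apply] at h1
  have h2 : LinearMap.toMatrix (rigBasis ρ) (rigBasis ρ) (1 : Module.End T ρ.V) = 1 :=
    LinearMap.toMatrix_one _
  exact (LinearMap.toMatrix (rigBasis ρ) (rigBasis ρ)).injective (h1.trans h2.symm)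

/-- variant in terms of `GaloisRepAdic.trace` -/
theorem eq_one_of_trace' (ρ : GaloisRepAdic T) (habs : ρ.residual.IsAbsolutelyIrreducible)
    (h : AlgebraicClosure ℚ ≃ₐ[ℚ] AlgebraicClosure ℚ)
    (htr : ∀ g : AlgebraicClosure ℚ ≃ₐ[ℚ] AlgebraicClosure ℚ, ρ.trace (g * h) = ρ.trace g) :
    ρ.ρ h = 1 :=
  eq_one_of_trace ρ habs h htr

end Fermat.Agent.S31.R
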